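import Fermat.Agent.S52.Klein.Lists

/-!
# S52, piece K: identities of Klein's forms, checked by kernel evaluation (GENERATED, kgen2.py)
-/

set_option autoImplicit false
set_option linter.unusedSimpArgs false
set_option linter.unusedVariables false
set_option linter.style.longLine false
set_option maxRecDepth 100000
set_option maxHeartbeats 4000000

namespace Fermat.Agent.S52

variable {R : Type*} [CommRing R]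

/-- `Q` lies on the curve (integral form). -/
theorem kY0n_sq (ζ A B : R) (hζ : 1 + ζ + ζ ^ 2 + ζ ^ 3 + ζ ^ 4 = 0) :
    5 * kY0n ζ A B ^ 2 = kX0n ζ A B ^ 3 - 675 * kE4 (A ^ 5) (B ^ 5) * kX0n ζ A B + 6750 * kE6 (A ^
    5) (B ^ 5) := by
  have h := kcheck_sound ζ A B
      (kmul [(KZ.ofInt 5, 0, 0)] (kpow kY0nL 2))
      (kadd (kadd (kpow kX0nL 3) (kneg (kmul (kmul [(KZ.ofInt 675, 0, 0)] kE4L) kX0nL))) (kmul [(KZ.ofInt 6750, 0, 0)] kE6L))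
      (by decide +kernel)
  simp only [kev_add, kev_neg, kev_mul hζ, kev_pow hζ, kev_comp hζ, kev_const,
    kev_kAL, kev_kBL, kev_kNegAL, kev_kZAL, kev_kX1L, kev_kY1L, kev_kX0nL, kev_kY0nL, kev_kX0n2L ζ _ _ hζ, kev_kY0n2L ζ _ _ hζ, kev_kE4L, kev_kE6L, kev_kFL, kev_kGL, kev_kTAL, kev_kTBL, kev_kS5L ζ _ _ hζ, kev_kC1L, kev_kC0L, kev_kD1L, kev_kD2L, kev_kGAL, kev_kGBL] at h
  push_cast at h
  linear_combination h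

/-- `x(2Q) = x(Q[ζ²])` (integral form). -/
theorem kX0n_dbl (ζ A B : R) (hζ : 1 + ζ + ζ ^ 2 + ζ ^ 3 + ζ ^ 4 = 0) :
    20 * kX0n (ζ ^ 2) A B * kY0n ζ A B ^ 2 = (3 * kX0n ζ A B ^ 2 - 675 * kE4 (A ^ 5) (B ^ 5)) ^ 2 -
    40 * kX0n ζ A B * kY0n ζ A B ^ 2 := by
  have h := kcheck_sound ζ A B
      (kmul (kmul [(KZ.ofInt 20, 0, 0)] kX0n2L) (kpow kY0nL 2))
      (kadd (kpow (kadd (kmul [(KZ.ofInt 3, 0, 0)] (kpow kX0nL 2)) (kneg (kmul [(KZ.ofInt 675, 0, 0)] kE4L))) 2) (kneg (kmul (kmul [(KZ.ofInt 40, 0, 0)] kX0nL) (kpow kY0nL 2))))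
      (by decide +kernel)
  simp only [kev_add, kev_neg, kev_mul hζ, kev_pow hζ, kev_comp hζ, kev_const,
    kev_kAL, kev_kBL, kev_kNegAL, kev_kZAL, kev_kX1L, kev_kY1L, kev_kX0nL, kev_kY0nL, kev_kX0n2L ζ _ _ hζ, kev_kY0n2L ζ _ _ hζ, kev_kE4L, kev_kE6L, kev_kFL, kev_kGL, kev_kTAL, kev_kTBL, kev_kS5L ζ _ _ hζ, kev_kC1L, kev_kC0L, kev_kD1L, kev_kD2L, kev_kGAL, kev_kGBL] at h
  push_cast at h
  linear_combination h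

/-- `y(2Q) = y(Q[ζ²])` (integral form). -/
theorem kY0n_dbl (ζ A B : R) (hζ : 1 + ζ + ζ ^ 2 + ζ ^ 3 + ζ ^ 4 = 0) :
    10 * kY0n (ζ ^ 2) A B * kY0n ζ A B + ((3 * kX0n ζ A B ^ 2 - 675 * kE4 (A ^ 5) (B ^ 5)) * (kX0n
    (ζ ^ 2) A B - kX0n ζ A B) + 10 * kY0n ζ A B ^ 2) = 0 := by
  have h := kcheck_sound ζ A B
      (kadd (kmul (kmul [(KZ.ofInt 10, 0, 0)] kY0n2L) kY0nL) (kadd (kmul (kadd (kmul [(KZ.ofInt 3, 0, 0)] (kpow kX0nL 2)) (kneg (kmul [(KZ.ofInt 675, 0, 0)] kE4L))) (kadd kX0n2L (kneg kX0nL))) (kmul [(KZ.ofInt 10, 0, 0)] (kpow kY0nL 2))))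
      [(KZ.ofInt 0, 0, 0)]
      (by decide +kernel)
  simp only [kev_add, kev_neg, kev_mul hζ, kev_pow hζ, kev_comp hζ, kev_const,
    kev_kAL, kev_kBL, kev_kNegAL, kev_kZAL, kev_kX1L, kev_kY1L, kev_kX0nL, kev_kY0nL, kev_kX0n2L ζ _ _ hζ, kev_kY0n2L ζ _ _ hζ, kev_kE4L, kev_kE6L, kev_kFL, kev_kGL, kev_kTAL, kev_kTBL, kev_kS5L ζ _ _ hζ, kev_kC1L, kev_kC0L, kev_kD1L, kev_kD2L, kev_kGAL, kev_kGBL] at h
  push_cast at h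
  linear_combination h

/-- `y(Q)` divides `540 g²`. -/
theorem kY0n_dvd (ζ A B : R) (hζ : 1 + ζ + ζ ^ 2 + ζ ^ 3 + ζ ^ 4 = 0) :
    kY0n ζ A B * kY0Cof ζ A B = 540 * (B ^ 10 - 11 * A ^ 5 * B ^ 5 - A ^ 10) ^ 2 := by
  have h := kcheck_sound ζ A B
      (kmul kY0nL kC0L)
      (kmul [(KZ.ofInt 540, 0, 0)] (kpow kGL 2))
      (by decide +kernel)
  simp only [kev_add, kev_neg, kev_mul hζ, kev_pow hζ, kev_comp hζ, kev_const,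
    kev_kAL, kev_kBL, kev_kNegAL, kev_kZAL, kev_kX1L, kev_kY1L, kev_kX0nL, kev_kY0nL, kev_kX0n2L ζ _ _ hζ, kev_kY0n2L ζ _ _ hζ, kev_kE4L, kev_kE6L, kev_kFL, kev_kGL, kev_kTAL, kev_kTBL, kev_kS5L ζ _ _ hζ, kev_kC1L, kev_kC0L, kev_kD1L, kev_kD2L, kev_kGAL, kev_kGBL] at h
  push_cast at h
  linear_combination h

/-- `5(x(Q) - x(P))` divides `180 f²`. -/
theorem kX0n_sub_kX1_dvd (ζ A B : R) (hζ : 1 + ζ + ζ ^ 2 + ζ ^ 3 + ζ ^ 4 = 0) :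
    (kX0n ζ A B - 5 * kX1 A B) * kD1Cof ζ A B = 180 * kF A B ^ 2 := by
  have h := kcheck_sound ζ A B
      (kmul (kadd kX0nL (kneg (kmul [(KZ.ofInt 5, 0, 0)] kX1L))) kD1L)
      (kmul [(KZ.ofInt 180, 0, 0)] (kpow kFL 2))
      (by decide +kernel)
  simp only [kev_add, kev_neg, kev_mul hζ, kev_pow hζ, kev_comp hζ, kev_const,
    kev_kAL, kev_kBL, kev_kNegAL, kev_kZAL, kev_kX1L, kev_kY1L, kev_kX0nL, kev_kY0nL, kev_kX0n2L ζ _ _ hζ, kev_kY0n2L ζ _ _ hζ, kev_kE4L, kev_kE6L, kev_kFL, kev_kGL, kev_kTAL, kev_kTBL, kev_kS5L ζ _ _ hζ, kev_kC1L, kev_kC0L, kev_kD1L, kev_kD2L, kev_kGAL, kev_kGBL] at h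
  push_cast at h
  linear_combination h

/-- `5(x(Q) - x(2P))` divides `180 f²`. -/
theorem kX0n_sub_kX2_dvd (ζ A B : R) (hζ : 1 + ζ + ζ ^ 2 + ζ ^ 3 + ζ ^ 4 = 0) :
    (kX0n ζ A B - 5 * kX1 B (-A)) * kD2Cof ζ A B = 180 * kF A B ^ 2 := by
  have h := kcheck_sound ζ A B
      (kmul (kadd kX0nL (kneg (kmul [(KZ.ofInt 5, 0, 0)] (kcomp kBL kNegAL kX1L)))) kD2L)
      (kmul [(KZ.ofInt 180, 0, 0)] (kpow kFL 2))
      (by decide +kernel)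
  simp only [kev_add, kev_neg, kev_mul hζ, kev_pow hζ, kev_comp hζ, kev_const,
    kev_kAL, kev_kBL, kev_kNegAL, kev_kZAL, kev_kX1L, kev_kY1L, kev_kX0nL, kev_kY0nL, kev_kX0n2L ζ _ _ hζ, kev_kY0n2L ζ _ _ hζ, kev_kE4L, kev_kE6L, kev_kFL, kev_kGL, kev_kTAL, kev_kTBL, kev_kS5L ζ _ _ hζ, kev_kC1L, kev_kC0L, kev_kD1L, kev_kD2L, kev_kGAL, kev_kGBL] at h
  push_cast at h
  linear_combination h

end Fermat.Agent.S52
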