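import Fermat.Agent.S52.Klein.Lists

/-!
# S52, piece K: identities of Klein's forms, checked by kernel evaluation (GENERATED, kgen2.py)
-/

set_option autoImplicit false
set_option linter.unusedSimpArgs false
set_option linter.unusedVariables false
set_option linter.style.longLine false
set_option maxRecDepth 100000
set_option maxHeartbeats 4000000

namespace Fermat.Agent.S52

variable {R : Type*} [CommRing R]

/-- `x(P + Q) = x_(1,1)` (integral form). -/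
theorem kXn_chord (ζ A B : R) (hζ : 1 + ζ + ζ ^ 2 + ζ ^ 3 + ζ ^ 4 = 0) :
    5 * kX1 (ζ * A) B * (5 * kX1 A B - kX0n ζ A B) ^ 2 = 5 * (5 * kY1 A B - kY0n ζ A B) ^ 2 - (5 *
    kX1 A B + kX0n ζ A B) * (5 * kX1 A B - kX0n ζ A B) ^ 2 := by
  have h := kcheck_sound ζ A B
      (kmul (kmul [(KZ.ofInt 5, 0, 0)] (kcomp kZAL kBL kX1L)) (kpow (kadd (kmul [(KZ.ofInt 5, 0, 0)] kX1L) (kneg kX0nL)) 2))
      (kadd (kmul [(KZ.ofInt 5, 0, 0)] (kpow (kadd (kmul [(KZ.ofInt 5, 0, 0)] kY1L) (kneg kY0nL)) 2)) (kneg (kmul (kadd (kmul [(KZ.ofInt 5, 0, 0)] kX1L) kX0nL) (kpow (kadd (kmul [(KZ.ofInt 5, 0, 0)] kX1L) (kneg kX0nL)) 2))))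
      (by decide +kernel)
  simp only [kev_add, kev_neg, kev_mul hζ, kev_pow hζ, kev_comp hζ, kev_const,
    kev_kAL, kev_kBL, kev_kNegAL, kev_kZAL, kev_kX1L, kev_kY1L, kev_kX0nL, kev_kY0nL, kev_kX0n2L ζ _ _ hζ, kev_kY0n2L ζ _ _ hζ, kev_kE4L, kev_kE6L, kev_kFL, kev_kGL, kev_kTAL, kev_kTBL, kev_kS5L ζ _ _ hζ, kev_kC1L, kev_kC0L, kev_kD1L, kev_kD2L, kev_kGAL, kev_kGBL] at h
  push_cast at h
  linear_combination h

/-- `y(P + Q) = y_(1,1)` (integral form). -/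
theorem kYn_chord (ζ A B : R) (hζ : 1 + ζ + ζ ^ 2 + ζ ^ 3 + ζ ^ 4 = 0) :
    5 * kY1 (ζ * A) B * (5 * kX1 A B - kX0n ζ A B) + ((5 * kY1 A B - kY0n ζ A B) * (5 * (kX1 (ζ *
    A) B - kX1 A B)) + 5 * kY1 A B * (5 * kX1 A B - kX0n ζ A B)) = 0 := by
  have h := kcheck_sound ζ A B
      (kadd (kmul (kmul [(KZ.ofInt 5, 0, 0)] (kcomp kZAL kBL kY1L)) (kadd (kmul [(KZ.ofInt 5, 0, 0)] kX1L) (kneg kX0nL))) (kadd (kmul (kadd (kmul [(KZ.ofInt 5, 0, 0)] kY1L) (kneg kY0nL)) (kmul [(KZ.ofInt 5, 0, 0)] (kadd (kcomp kZAL kBL kX1L) (kneg kX1L)))) (kmul (kmul [(KZ.ofInt 5, 0, 0)] kY1L) (kadd (kmul [(KZ.ofInt 5, 0, 0)] kX1L) (kneg kX0nL)))))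
      [(KZ.ofInt 0, 0, 0)]
      (by decide +kernel)
  simp only [kev_add, kev_neg, kev_mul hζ, kev_pow hζ, kev_comp hζ, kev_const,
    kev_kAL, kev_kBL, kev_kNegAL, kev_kZAL, kev_kX1L, kev_kY1L, kev_kX0nL, kev_kY0nL, kev_kX0n2L ζ _ _ hζ, kev_kY0n2L ζ _ _ hζ, kev_kE4L, kev_kE6L, kev_kFL, kev_kGL, kev_kTAL, kev_kTBL, kev_kS5L ζ _ _ hζ, kev_kC1L, kev_kC0L, kev_kD1L, kev_kD2L, kev_kGAL, kev_kGBL] at h
  push_cast at h
  linear_combination h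

end Fermat.Agent.S52
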