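import Fermat.Agent.S52.Klein.Lists

/-!
# S52, piece K: identities of Klein's forms, checked by kernel evaluation (GENERATED, kgen2.py)
-/

set_option autoImplicit false
set_option linter.unusedSimpArgs false
set_option linter.unusedVariables false
set_option linter.style.longLine false
set_option maxRecDepth 100000
set_option maxHeartbeats 4000000

namespace Fermat.Agent.S52

variable {R : Type*} [CommRing R]

/-- `√5² = 5`. -/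
theorem kS5_sq (ζ A B : R) (hζ : 1 + ζ + ζ ^ 2 + ζ ^ 3 + ζ ^ 4 = 0) :
    kS5 ζ ^ 2 = 5 := by
  have h := kcheck_sound ζ A B
      (kpow kS5L 2)
      [(KZ.ofInt 5, 0, 0)]
      (by decide +kernel)
  simp only [kev_add, kev_neg, kev_mul hζ, kev_pow hζ, kev_comp hζ, kev_const,
    kev_kAL, kev_kBL, kev_kNegAL, kev_kZAL, kev_kX1L, kev_kY1L, kev_kX0nL, kev_kY0nL, kev_kX0n2L ζ _ _ hζ, kev_kY0n2L ζ _ _ hζ, kev_kE4L, kev_kE6L, kev_kFL, kev_kGL, kev_kTAL, kev_kTBL, kev_kS5L ζ _ _ hζ, kev_kC1L, kev_kC0L, kev_kD1L, kev_kD2L, kev_kGAL, kev_kGBL] at h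
  push_cast at h
  linear_combination h

/-- `P(Tx) = Q(x)` in terms of `T' = √5·T`. -/
theorem kX1_T' (ζ A B : R) (hζ : 1 + ζ + ζ ^ 2 + ζ ^ 3 + ζ ^ 4 = 0) :
    kX1 (kTA' ζ A B) (kTB' ζ A B) = 625 * kX0n ζ A B := by
  have h := kcheck_sound ζ A B
      (kcomp kTAL kTBL kX1L)
      (kmul [(KZ.ofInt 625, 0, 0)] kX0nL)
      (by decide +kernel)
  simp only [kev_add, kev_neg, kev_mul hζ, kev_pow hζ, kev_comp hζ, kev_const,
    kev_kAL, kev_kBL, kev_kNegAL, kev_kZAL, kev_kX1L, kev_kY1L, kev_kX0nL, kev_kY0nL, kev_kX0n2L ζ _ _ hζ, kev_kY0n2L ζ _ _ hζ, kev_kE4L, kev_kE6L, kev_kFL, kev_kGL, kev_kTAL, kev_kTBL, kev_kS5L ζ _ _ hζ, kev_kC1L, kev_kC0L, kev_kD1L, kev_kD2L, kev_kGAL, kev_kGBL] at h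
  push_cast at h
  linear_combination h

/-- `Q(Tx) = -P(x)` in terms of `T' = √5·T`. -/
theorem kX0n_T' (ζ A B : R) (hζ : 1 + ζ + ζ ^ 2 + ζ ^ 3 + ζ ^ 4 = 0) :
    kX0n ζ (kTA' ζ A B) (kTB' ζ A B) = 15625 * kX1 A B := by
  have h := kcheck_sound ζ A B
      (kcomp kTAL kTBL kX0nL)
      (kmul [(KZ.ofInt 15625, 0, 0)] kX1L)
      (by decide +kernel)
  simp only [kev_add, kev_neg, kev_mul hζ, kev_pow hζ, kev_comp hζ, kev_const,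
    kev_kAL, kev_kBL, kev_kNegAL, kev_kZAL, kev_kX1L, kev_kY1L, kev_kX0nL, kev_kY0nL, kev_kX0n2L ζ _ _ hζ, kev_kY0n2L ζ _ _ hζ, kev_kE4L, kev_kE6L, kev_kFL, kev_kGL, kev_kTAL, kev_kTBL, kev_kS5L ζ _ _ hζ, kev_kC1L, kev_kC0L, kev_kD1L, kev_kD2L, kev_kGAL, kev_kGBL] at h
  push_cast at h
  linear_combination h

/-- `f(T'x) = 5⁶ f(x)`. -/
theorem kF_T' (ζ A B : R) (hζ : 1 + ζ + ζ ^ 2 + ζ ^ 3 + ζ ^ 4 = 0) :
    kF (kTA' ζ A B) (kTB' ζ A B) = 15625 * kF A B := by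
  have h := kcheck_sound ζ A B
      (kcomp kTAL kTBL kFL)
      (kmul [(KZ.ofInt 15625, 0, 0)] kFL)
      (by decide +kernel)
  simp only [kev_add, kev_neg, kev_mul hζ, kev_pow hζ, kev_comp hζ, kev_const,
    kev_kAL, kev_kBL, kev_kNegAL, kev_kZAL, kev_kX1L, kev_kY1L, kev_kX0nL, kev_kY0nL, kev_kX0n2L ζ _ _ hζ, kev_kY0n2L ζ _ _ hζ, kev_kE4L, kev_kE6L, kev_kFL, kev_kGL, kev_kTAL, kev_kTBL, kev_kS5L ζ _ _ hζ, kev_kC1L, kev_kC0L, kev_kD1L, kev_kD2L, kev_kGAL, kev_kGBL] at h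
  push_cast at h
  linear_combination h

end Fermat.Agent.S52
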