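import Fermat.Agent.S52.Klein.IdentA
import Fermat.Agent.S52.Klein.IdentR1
import Fermat.Agent.S52.Klein.IdentR2
import Fermat.Agent.S52.Klein.IdentR3
import Fermat.Agent.S52.Klein.IdentR4
import Fermat.Agent.S52.Klein.IdentR5
import Fermat.Agent.S52.Klein.IdentR6

/-!
# S52, piece K: the identities of Klein's forms in their final shape (GENERATED, kgen3.py)
`Q = (kX0, kY0)` with `i5 = 1/5`; Klein's `T = T'/√5`.  Derived from the kernel-checked integral identities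
of `IdentR*.lean` by small `linear_combination`s in which the forms are opaque atoms.
-/

set_option autoImplicit false
set_option linter.unusedSimpArgs false
set_option linter.unusedVariables false
set_option linter.style.longLine false
set_option maxRecDepth 100000

namespace Fermat.Agent.S52

variable {R : Type*} [CommRing R]

/-- `Q` lies on the curve. -/
theorem kY0_sq (ζ i5 A B : R) (hζ : 1 + ζ + ζ ^ 2 + ζ ^ 3 + ζ ^ 4 = 0) (h5 : 5 * i5 = 1) :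
    kY0 ζ i5 A B ^ 2 = kX0 ζ i5 A B ^ 3 - 27 * kE4 (A ^ 5) (B ^ 5) * kX0 ζ i5 A B + 54 * kE6 (A ^
    5) (B ^ 5) := by
  have H := kY0n_sq ζ A B hζ
  simp only [kX0, kY0]
  linear_combination
    (i5 ^ 3) * H + (-135 * i5 ^ 2 * kX0n ζ A B * kE4 (A ^ 5) (B ^ 5) - i5 ^ 2 * kY0n ζ A B ^ 2 +
    1350 * i5 ^ 2 * kE6 (A ^ 5) (B ^ 5) - 27 * i5 * kX0n ζ A B * kE4 (A ^ 5) (B ^ 5) + 270 * i5 *
    kE6 (A ^ 5) (B ^ 5) + 54 * kE6 (A ^ 5) (B ^ 5)) * h5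

/-- `x(2Q) = x(Q[ζ²])`. -/
theorem kX0_dbl (ζ i5 A B : R) (hζ : 1 + ζ + ζ ^ 2 + ζ ^ 3 + ζ ^ 4 = 0) (h5 : 5 * i5 = 1) :
    kX0 (ζ ^ 2) i5 A B * (2 * kY0 ζ i5 A B) ^ 2 = (3 * kX0 ζ i5 A B ^ 2 - 27 * kE4 (A ^ 5) (B ^ 5))
    ^ 2 - 2 * kX0 ζ i5 A B * (2 * kY0 ζ i5 A B) ^ 2 := by
  have H := kX0n_dbl ζ A B hζ
  simp only [kX0, kY0]
  linear_combination
    (i5 ^ 4) * H + (-810 * i5 ^ 3 * kX0n ζ A B ^ 2 * kE4 (A ^ 5) (B ^ 5) - 8 * i5 ^ 3 * kX0n ζ A B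
    * kY0n ζ A B ^ 2 - 4 * i5 ^ 3 * kY0n ζ A B ^ 2 * kX0n (ζ ^ 2) A B + 91125 * i5 ^ 3 * kE4 (A ^
    5) (B ^ 5) ^ 2 - 162 * i5 ^ 2 * kX0n ζ A B ^ 2 * kE4 (A ^ 5) (B ^ 5) + 18225 * i5 ^ 2 * kE4 (A
    ^ 5) (B ^ 5) ^ 2 + 3645 * i5 * kE4 (A ^ 5) (B ^ 5) ^ 2 + 729 * kE4 (A ^ 5) (B ^ 5) ^ 2) * h5

/-- `y(2Q) = y(Q[ζ²])`. -/
theorem kY0_dbl (ζ i5 A B : R) (hζ : 1 + ζ + ζ ^ 2 + ζ ^ 3 + ζ ^ 4 = 0) (h5 : 5 * i5 = 1) :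
    kY0 (ζ ^ 2) i5 A B * (2 * kY0 ζ i5 A B) = -((3 * kX0 ζ i5 A B ^ 2 - 27 * kE4 (A ^ 5) (B ^ 5)) *
    (kX0 (ζ ^ 2) i5 A B - kX0 ζ i5 A B) + 2 * kY0 ζ i5 A B ^ 2) := by
  have H := kY0n_dbl ζ A B hζ
  simp only [kX0, kY0]
  linear_combination
    (i5 ^ 3) * H + (-135 * i5 ^ 2 * kX0n ζ A B * kE4 (A ^ 5) (B ^ 5) - 2 * i5 ^ 2 * kY0n ζ A B ^ 2
    - 2 * i5 ^ 2 * kY0n ζ A B * kY0n (ζ ^ 2) A B + 135 * i5 ^ 2 * kX0n (ζ ^ 2) A B * kE4 (A ^ 5) (B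
    ^ 5) - 27 * i5 * kX0n ζ A B * kE4 (A ^ 5) (B ^ 5) + 27 * i5 * kX0n (ζ ^ 2) A B * kE4 (A ^ 5) (B
    ^ 5)) * h5

/-- `y(Q)` divides `108 g²`. -/
theorem kY0_dvd (ζ i5 A B : R) (hζ : 1 + ζ + ζ ^ 2 + ζ ^ 3 + ζ ^ 4 = 0) (h5 : 5 * i5 = 1) :
    kY0 ζ i5 A B * kY0Cof ζ A B = 108 * (B ^ 10 - 11 * A ^ 5 * B ^ 5 - A ^ 10) ^ 2 := by
  have H := kY0n_dvd ζ A B hζ
  simp only [kX0, kY0]
  linear_combination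
    (i5) * H + (108 * (B ^ 10 - 11 * A ^ 5 * B ^ 5 - A ^ 10) ^ 2) * h5

/-- `x(Q) - x(P)` divides `36 f²`. -/
theorem kX0_sub_kX1_dvd (ζ i5 A B : R) (hζ : 1 + ζ + ζ ^ 2 + ζ ^ 3 + ζ ^ 4 = 0) (h5 : 5 * i5 = 1) :
    (kX0 ζ i5 A B - kX1 A B) * kD1Cof ζ A B = 36 * kF A B ^ 2 := by
  have H := kX0n_sub_kX1_dvd ζ A B hζ
  simp only [kX0, kY0]
  linear_combination
    (i5) * H + (kX1 A B * kD1Cof ζ A B + 36 * kF A B ^ 2) * h5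

/-- `x(Q) - x(2P)` divides `36 f²`. -/
theorem kX0_sub_kX2_dvd (ζ i5 A B : R) (hζ : 1 + ζ + ζ ^ 2 + ζ ^ 3 + ζ ^ 4 = 0) (h5 : 5 * i5 = 1) :
    (kX0 ζ i5 A B - kX1 B (-A)) * kD2Cof ζ A B = 36 * kF A B ^ 2 := by
  have H := kX0n_sub_kX2_dvd ζ A B hζ
  simp only [kX0, kY0]
  linear_combination
    (i5) * H + (kX1 B (-A) * kD2Cof ζ A B + 36 * kF A B ^ 2) * h5

/-- `x(P + Q) = x(P(Sx))`. -/
theorem kX_chord (ζ i5 A B : R) (hζ : 1 + ζ + ζ ^ 2 + ζ ^ 3 + ζ ^ 4 = 0) (h5 : 5 * i5 = 1) :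
    kX1 (ζ * A) B * (kX1 A B - kX0 ζ i5 A B) ^ 2 = (kY1 A B - kY0 ζ i5 A B) ^ 2 - (kX1 A B + kX0 ζ
    i5 A B) * (kX1 A B - kX0 ζ i5 A B) ^ 2 := by
  have H := kXn_chord ζ A B hζ
  simp only [kX0, kY0]
  linear_combination
    (i5 ^ 3) * H + (-25 * i5 ^ 2 * kX1 A B ^ 3 + 5 * i5 ^ 2 * kX1 A B ^ 2 * kX0n ζ A B - 25 * i5 ^
    2 * kX1 A B ^ 2 * kX1 (ζ * A) B + i5 ^ 2 * kX1 A B * kX0n ζ A B ^ 2 + 10 * i5 ^ 2 * kX1 A B *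
    kX0n ζ A B * kX1 (ζ * A) B + 25 * i5 ^ 2 * kY1 A B ^ 2 - 10 * i5 ^ 2 * kY1 A B * kY0n ζ A B -
    i5 ^ 2 * kX0n ζ A B ^ 2 * kX1 (ζ * A) B + i5 ^ 2 * kY0n ζ A B ^ 2 - 5 * i5 * kX1 A B ^ 3 + i5 *
    kX1 A B ^ 2 * kX0n ζ A B - 5 * i5 * kX1 A B ^ 2 * kX1 (ζ * A) B + 2 * i5 * kX1 A B * kX0n ζ A B
    * kX1 (ζ * A) B + 5 * i5 * kY1 A B ^ 2 - 2 * i5 * kY1 A B * kY0n ζ A B - kX1 A B ^ 3 - kX1 A B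
    ^ 2 * kX1 (ζ * A) B + kY1 A B ^ 2) * h5

/-- `y(P + Q) = y(P(Sx))`. -/
theorem kY_chord (ζ i5 A B : R) (hζ : 1 + ζ + ζ ^ 2 + ζ ^ 3 + ζ ^ 4 = 0) (h5 : 5 * i5 = 1) :
    kY1 (ζ * A) B * (kX1 A B - kX0 ζ i5 A B) = -((kY1 A B - kY0 ζ i5 A B) * (kX1 (ζ * A) B - kX1 A
    B) + kY1 A B * (kX1 A B - kX0 ζ i5 A B)) := by
  have H := kYn_chord ζ A B hζ
  simp only [kX0, kY0]
  linear_combination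
    (i5 ^ 2) * H + (-i5 * kX1 A B * kY0n ζ A B - 5 * i5 * kX1 A B * kY1 (ζ * A) B + i5 * kY1 A B *
    kX0n ζ A B - 5 * i5 * kY1 A B * kX1 (ζ * A) B + i5 * kX0n ζ A B * kY1 (ζ * A) B + i5 * kY0n ζ A
    B * kX1 (ζ * A) B - kX1 A B * kY1 (ζ * A) B - kY1 A B * kX1 (ζ * A) B) * h5

/-- twist `ζ ↦ ζ⁴` (`Q[ζ⁴] = -Q`). -/
theorem kX0n_twist4 (ζ A B : R) (hζ : 1 + ζ + ζ ^ 2 + ζ ^ 3 + ζ ^ 4 = 0) :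
    kX0n (ζ ^ 4) A B = kX0n ζ A B := by
  simp only [kX0n, kY0n]
  linear_combination
    (-36 * ζ ^ 8 * A ^ 10 - 396 * ζ ^ 8 * A ^ 5 * B ^ 5 + 36 * ζ ^ 8 * B ^ 10 + 36 * ζ ^ 7 * A ^ 10
    + 396 * ζ ^ 7 * A ^ 5 * B ^ 5 - 36 * ζ ^ 7 * B ^ 10 - 36 * ζ ^ 4 * A ^ 10 - 396 * ζ ^ 4 * A ^ 5
    * B ^ 5 + 36 * ζ ^ 4 * B ^ 10 + 36 * ζ ^ 2 * A ^ 10 + 396 * ζ ^ 2 * A ^ 5 * B ^ 5 - 36 * ζ ^ 2
    * B ^ 10) * hζ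

/-- twist `ζ ↦ ζ⁴` (`Q[ζ⁴] = -Q`). -/
theorem kY0n_twist4 (ζ A B : R) (hζ : 1 + ζ + ζ ^ 2 + ζ ^ 3 + ζ ^ 4 = 0) :
    kY0n (ζ ^ 4) A B = -kY0n ζ A B := by
  simp only [kX0n, kY0n]
  linear_combination
    (-324 * ζ ^ 8 * A ^ 15 - 3456 * ζ ^ 8 * A ^ 10 * B ^ 5 + 1512 * ζ ^ 8 * A ^ 5 * B ^ 10 - 108 *
    ζ ^ 8 * B ^ 15 + 324 * ζ ^ 7 * A ^ 15 + 3456 * ζ ^ 7 * A ^ 10 * B ^ 5 - 1512 * ζ ^ 7 * A ^ 5 *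
    B ^ 10 + 108 * ζ ^ 7 * B ^ 15 + 108 * ζ ^ 4 * A ^ 15 + 1512 * ζ ^ 4 * A ^ 10 * B ^ 5 + 3456 * ζ
    ^ 4 * A ^ 5 * B ^ 10 - 324 * ζ ^ 4 * B ^ 15 - 432 * ζ ^ 3 * A ^ 15 - 4968 * ζ ^ 3 * A ^ 10 * B
    ^ 5 - 1944 * ζ ^ 3 * A ^ 5 * B ^ 10 + 216 * ζ ^ 3 * B ^ 15 + 324 * ζ ^ 2 * A ^ 15 + 3456 * ζ ^
    2 * A ^ 10 * B ^ 5 - 1512 * ζ ^ 2 * A ^ 5 * B ^ 10 + 108 * ζ ^ 2 * B ^ 15 - 216 * A ^ 15 - 1944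
    * A ^ 10 * B ^ 5 + 4968 * A ^ 5 * B ^ 10 - 432 * B ^ 15) * hζ

/-- twist `ζ ↦ ζ³` (`Q[ζ³] = -Q[ζ²]`). -/
theorem kX0n_twist3 (ζ A B : R) (hζ : 1 + ζ + ζ ^ 2 + ζ ^ 3 + ζ ^ 4 = 0) :
    kX0n (ζ ^ 3) A B = kX0n (ζ ^ 2) A B := by
  simp only [kX0n, kY0n]
  linear_combination
    (-36 * ζ ^ 5 * A ^ 10 - 396 * ζ ^ 5 * A ^ 5 * B ^ 5 + 36 * ζ ^ 5 * B ^ 10 + 36 * ζ ^ 4 * A ^ 10
    + 396 * ζ ^ 4 * A ^ 5 * B ^ 5 - 36 * ζ ^ 4 * B ^ 10) * hζ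

/-- twist `ζ ↦ ζ³` (`Q[ζ³] = -Q[ζ²]`). -/
theorem kY0n_twist3 (ζ A B : R) (hζ : 1 + ζ + ζ ^ 2 + ζ ^ 3 + ζ ^ 4 = 0) :
    kY0n (ζ ^ 3) A B = -kY0n (ζ ^ 2) A B := by
  simp only [kX0n, kY0n]
  linear_combination
    (-324 * ζ ^ 5 * A ^ 15 - 3456 * ζ ^ 5 * A ^ 10 * B ^ 5 + 1512 * ζ ^ 5 * A ^ 5 * B ^ 10 - 108 *
    ζ ^ 5 * B ^ 15 + 324 * ζ ^ 4 * A ^ 15 + 3456 * ζ ^ 4 * A ^ 10 * B ^ 5 - 1512 * ζ ^ 4 * A ^ 5 *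
    B ^ 10 + 108 * ζ ^ 4 * B ^ 15 - 216 * ζ ^ 2 * A ^ 15 - 1944 * ζ ^ 2 * A ^ 10 * B ^ 5 + 4968 * ζ
    ^ 2 * A ^ 5 * B ^ 10 - 432 * ζ ^ 2 * B ^ 15 + 216 * ζ * A ^ 15 + 1944 * ζ * A ^ 10 * B ^ 5 -
    4968 * ζ * A ^ 5 * B ^ 10 + 432 * ζ * B ^ 15 - 216 * A ^ 15 - 1944 * A ^ 10 * B ^ 5 + 4968 * A
    ^ 5 * B ^ 10 - 432 * B ^ 15) * hζ

/-- `Q(Jx) = Q[ζ³](x) = -Q[ζ²](x)`. -/
theorem kX0n_J (ζ A B : R) (hζ : 1 + ζ + ζ ^ 2 + ζ ^ 3 + ζ ^ 4 = 0) :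
    kX0n ζ B (-A) = kX0n (ζ ^ 2) A B := by
  simp only [kX0n, kY0n]
  linear_combination
    (36 * ζ ^ 2 * A ^ 10 + 396 * ζ ^ 2 * A ^ 5 * B ^ 5 - 36 * ζ ^ 2 * B ^ 10 - 36 * ζ * A ^ 10 -
    396 * ζ * A ^ 5 * B ^ 5 + 36 * ζ * B ^ 10 + 36 * A ^ 10 + 396 * A ^ 5 * B ^ 5 - 36 * B ^ 10) *
    hζ

/-- `Q(Jx) = Q[ζ³](x) = -Q[ζ²](x)`. -/
theorem kY0n_J (ζ A B : R) (hζ : 1 + ζ + ζ ^ 2 + ζ ^ 3 + ζ ^ 4 = 0) :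
    kY0n ζ B (-A) = -kY0n (ζ ^ 2) A B := by
  simp only [kX0n, kY0n]
  linear_combination
    (-324 * ζ ^ 2 * A ^ 15 - 3456 * ζ ^ 2 * A ^ 10 * B ^ 5 + 1512 * ζ ^ 2 * A ^ 5 * B ^ 10 - 108 *
    ζ ^ 2 * B ^ 15 + 324 * ζ * A ^ 15 + 3456 * ζ * A ^ 10 * B ^ 5 - 1512 * ζ * A ^ 5 * B ^ 10 + 108
    * ζ * B ^ 15 + 108 * A ^ 15 + 1512 * A ^ 10 * B ^ 5 + 3456 * A ^ 5 * B ^ 10 - 324 * B ^ 15) *
    hζ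

/-! ### homogeneity -/

theorem kX1_hom (u A B : R) : kX1 (u * A) (u * B) = u ^ 10 * kX1 A B := by
  simp only [kX1]; ring

theorem kY1_hom (u A B : R) : kY1 (u * A) (u * B) = u ^ 15 * kY1 A B := by
  simp only [kY1]; ring

theorem kX0n_hom (ζ u A B : R) : kX0n ζ (u * A) (u * B) = u ^ 10 * kX0n ζ A B := by
  simp only [kX0n]; ring

theorem kY0n_hom (ζ u A B : R) : kY0n ζ (u * A) (u * B) = u ^ 15 * kY0n ζ A B := by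
  simp only [kY0n]; ring

theorem kF_hom (u A B : R) : kF (u * A) (u * B) = u ^ 12 * kF A B := by
  simp only [kF]; ring

theorem kE4_hom (u A B : R) : kE4 ((u * A) ^ 5) ((u * B) ^ 5) = u ^ 20 * kE4 (A ^ 5) (B ^ 5) := by
  simp only [kE4]; ring

theorem kE6_hom (u A B : R) : kE6 ((u * A) ^ 5) ((u * B) ^ 5) = u ^ 30 * kE6 (A ^ 5) (B ^ 5) := by
  simp only [kE6]; ring

theorem kGradA_hom (u A B : R) : kGradA (u * A) (u * B) = u ^ 11 * kGradA A B := by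
  simp only [kGradA]; ring

theorem kGradB_hom (u A B : R) : kGradB (u * A) (u * B) = u ^ 11 * kGradB A B := by
  simp only [kGradB]; ring

theorem kTA'_lin (ζ u v A B A' B' : R) :
    kTA' ζ (u * A + v * A') (u * B + v * B') = u * kTA' ζ A B + v * kTA' ζ A' B' := by
  simp only [kTA']; ring

theorem kTB'_lin (ζ u v A B A' B' : R) :
    kTB' ζ (u * A + v * A') (u * B + v * B') = u * kTB' ζ A B + v * kTB' ζ A' B' := by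
  simp only [kTB']; ring

/-! ### Klein's `T` -/

/-- `(i5 · √5)² = i5`. -/
theorem kLam_sq (ζ i5 : R) (hζ : 1 + ζ + ζ ^ 2 + ζ ^ 3 + ζ ^ 4 = 0) (h5 : 5 * i5 = 1) :
    (i5 * kS5 ζ) ^ 2 = i5 := by
  have hs := kS5_sq ζ 0 0 hζ
  linear_combination (i5 ^ 2) * hs + i5 * h5

/-- `(i5 · √5) · √5 = 1`. -/
theorem kLam_mul (ζ i5 : R) (hζ : 1 + ζ + ζ ^ 2 + ζ ^ 3 + ζ ^ 4 = 0) (h5 : 5 * i5 = 1) :
    i5 * kS5 ζ * kS5 ζ = 1 := by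
  have hs := kS5_sq ζ 0 0 hζ
  linear_combination i5 * hs + h5

theorem kLam_pow_ten (ζ i5 : R) (hζ : 1 + ζ + ζ ^ 2 + ζ ^ 3 + ζ ^ 4 = 0) (h5 : 5 * i5 = 1) :
    (i5 * kS5 ζ) ^ 10 * 3125 = 1 := by
  have h2 := kLam_sq ζ i5 hζ h5
  have : (i5 * kS5 ζ) ^ 10 = i5 ^ 5 := by
    calc (i5 * kS5 ζ) ^ 10 = ((i5 * kS5 ζ) ^ 2) ^ 5 := by ring
      _ = i5 ^ 5 := by rw [h2]
  rw [this]
  linear_combination (625 * i5 ^ 4 + 125 * i5 ^ 3 + 25 * i5 ^ 2 + 5 * i5 + 1) * h5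

/-- `P(Tx) = Q(x)`, `x`-coordinate. -/
theorem kX1_T (ζ i5 A B : R) (hζ : 1 + ζ + ζ ^ 2 + ζ ^ 3 + ζ ^ 4 = 0) (h5 : 5 * i5 = 1) :
    kX1 (kTA ζ i5 A B) (kTB ζ i5 A B) = kX0 ζ i5 A B := by
  have h10 := kLam_pow_ten ζ i5 hζ h5
  have hT := kX1_T' ζ A B hζ
  rw [kTA, kTB, kX1_hom, hT, kX0]
  linear_combination (i5 * kX0n ζ A B) * h10 - (625 * (i5 * kS5 ζ) ^ 10 * kX0n ζ A B) * h5

/-- `P(Tx) = Q(x)`, `y`-coordinate. -/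
theorem kY1_T (ζ i5 A B : R) (hζ : 1 + ζ + ζ ^ 2 + ζ ^ 3 + ζ ^ 4 = 0) (h5 : 5 * i5 = 1) :
    kY1 (kTA ζ i5 A B) (kTB ζ i5 A B) = kY0 ζ i5 A B := by
  have h10 := kLam_pow_ten ζ i5 hζ h5
  have h2 := kLam_sq ζ i5 hζ h5
  have h1 := kLam_mul ζ i5 hζ h5
  have hT := kY1_T' ζ A B hζ
  rw [kTA, kTB, kY1_hom, hT, kY0]
  have e : (i5 * kS5 ζ) ^ 15 * (15625 * kS5 ζ * kY0n ζ A B)
      = ((i5 * kS5 ζ) ^ 10 * 3125) * ((i5 * kS5 ζ) ^ 2) ^ 2 * (i5 * kS5 ζ * kS5 ζ) * 5 * kY0n ζ A B := by ring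
  rw [e, h10, h2, h1]
  linear_combination (i5 * kY0n ζ A B) * h5

/-- `Q(Tx) = -P(x)`, `x`-coordinate. -/
theorem kX0_T (ζ i5 A B : R) (hζ : 1 + ζ + ζ ^ 2 + ζ ^ 3 + ζ ^ 4 = 0) (h5 : 5 * i5 = 1) :
    kX0 ζ i5 (kTA ζ i5 A B) (kTB ζ i5 A B) = kX1 A B := by
  have h10 := kLam_pow_ten ζ i5 hζ h5
  have hT := kX0n_T' ζ A B hζ
  rw [kX0, kTA, kTB, kX0n_hom, hT]
  have e : i5 * ((i5 * kS5 ζ) ^ 10 * (15625 * kX1 A B))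
      = ((i5 * kS5 ζ) ^ 10 * 3125) * (5 * i5) * kX1 A B := by ring
  rw [e, h10, h5]; ring

/-- `Q(Tx) = -P(x)`, `y`-coordinate. -/
theorem kY0_T (ζ i5 A B : R) (hζ : 1 + ζ + ζ ^ 2 + ζ ^ 3 + ζ ^ 4 = 0) (h5 : 5 * i5 = 1) :
    kY0 ζ i5 (kTA ζ i5 A B) (kTB ζ i5 A B) = -kY1 A B := by
  have h10 := kLam_pow_ten ζ i5 hζ h5
  have h2 := kLam_sq ζ i5 hζ h5
  have h1 := kLam_mul ζ i5 hζ h5
  have hT : kY0n ζ (kTA' ζ A B) (kTB' ζ A B) = -(390625 * kS5 ζ * kY1 A B) := by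
    linear_combination kY0n_T' ζ A B hζ
  rw [kY0, kTA, kTB, kY0n_hom, hT]
  have e : i5 * ((i5 * kS5 ζ) ^ 15 * -(390625 * kS5 ζ * kY1 A B))
      = -(((i5 * kS5 ζ) ^ 10 * 3125) * ((i5 * kS5 ζ) ^ 2) ^ 2 * (i5 * kS5 ζ * kS5 ζ) * (5 * i5) * 25
          * kY1 A B) := by ring
  rw [e, h10, h2, h1, h5]
  linear_combination (-(5 * i5 + 1) * kY1 A B) * h5

/-- `f(Tx) = f(x)`. -/
theorem kF_T (ζ i5 A B : R) (hζ : 1 + ζ + ζ ^ 2 + ζ ^ 3 + ζ ^ 4 = 0) (h5 : 5 * i5 = 1) :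
    kF (kTA ζ i5 A B) (kTB ζ i5 A B) = kF A B := by
  have h10 := kLam_pow_ten ζ i5 hζ h5
  have h2 := kLam_sq ζ i5 hζ h5
  have hT := kF_T' ζ A B hζ
  rw [kTA, kTB, kF_hom, hT]
  have e : (i5 * kS5 ζ) ^ 12 * (15625 * kF A B)
      = ((i5 * kS5 ζ) ^ 10 * 3125) * ((i5 * kS5 ζ) ^ 2) * 5 * kF A B := by ring
  rw [e, h10, h2]
  linear_combination (kF A B) * h5

/-- `E₄(Tx) = E₄(x)`. -/
theorem kE4_T (ζ i5 A B : R) (hζ : 1 + ζ + ζ ^ 2 + ζ ^ 3 + ζ ^ 4 = 0) (h5 : 5 * i5 = 1) :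
    kE4 (kTA ζ i5 A B ^ 5) (kTB ζ i5 A B ^ 5) = kE4 (A ^ 5) (B ^ 5) := by
  have h10 := kLam_pow_ten ζ i5 hζ h5
  have hT := kE4_T' ζ A B hζ
  rw [kTA, kTB, kE4_hom, hT]
  have e : (i5 * kS5 ζ) ^ 20 * (9765625 * kE4 (A ^ 5) (B ^ 5))
      = ((i5 * kS5 ζ) ^ 10 * 3125) ^ 2 * kE4 (A ^ 5) (B ^ 5) := by ring
  rw [e, h10]; ring

/-- `E₆(Tx) = E₆(x)`. -/
theorem kE6_T (ζ i5 A B : R) (hζ : 1 + ζ + ζ ^ 2 + ζ ^ 3 + ζ ^ 4 = 0) (h5 : 5 * i5 = 1) :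
    kE6 (kTA ζ i5 A B ^ 5) (kTB ζ i5 A B ^ 5) = kE6 (A ^ 5) (B ^ 5) := by
  have h10 := kLam_pow_ten ζ i5 hζ h5
  have hT := kE6_T' ζ A B hζ
  rw [kTA, kTB, kE6_hom, hT]
  have e : (i5 * kS5 ζ) ^ 30 * (30517578125 * kE6 (A ^ 5) (B ^ 5))
      = ((i5 * kS5 ζ) ^ 10 * 3125) ^ 3 * kE6 (A ^ 5) (B ^ 5) := by ring
  rw [e, h10]; ring

/-- `Φ_t(x) = x + t ∇^⊥ f(x)`. -/
theorem kPhi_eq (t : R) (x : R × R) :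
    kPhi t x = (x.1 + t * kGradA x.1 x.2, x.2 + t * kGradB x.1 x.2) := by
  simp only [kPhi, kAlpha, kBeta, kGradA, kGradB]
  ext <;> ring

/-- covariance: `Φ_t(Tx) = T Φ_t(x)`. -/
theorem kPhi_T (ζ i5 t : R) (x : R × R) (hζ : 1 + ζ + ζ ^ 2 + ζ ^ 3 + ζ ^ 4 = 0) (h5 : 5 * i5 = 1) :
    kPhi t (kT ζ i5 x) = kT ζ i5 (kPhi t x) := by
  obtain ⟨A, B⟩ := x
  have h10 := kLam_pow_ten ζ i5 hζ h5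
  have hA := kGradA_T' ζ A B hζ
  have hB := kGradB_T' ζ A B hζ
  rw [kPhi_eq, kPhi_eq]
  simp only [kT, kTA, kTB, kGradA_hom, kGradB_hom, hA, hB]
  ext
  · simp only [kTA']
    linear_combination (t * (i5 * kS5 ζ) * ((-1 - 2 * ζ - ζ ^ 2 - ζ ^ 3) * kGradA A B
      + (ζ ^ 2 - ζ ^ 3) * kGradB A B)) * h10
  · simp only [kTB']
    linear_combination (t * (i5 * kS5 ζ) * ((ζ ^ 2 - ζ ^ 3) * kGradA A B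
      + (1 + 2 * ζ + ζ ^ 2 + ζ ^ 3) * kGradB A B)) * h10

/-! ### the other generators -/

theorem kX1_neg (A B : R) : kX1 (-A) (-B) = kX1 A B := by simp only [kX1]; ring

theorem kY1_neg (A B : R) : kY1 (-A) (-B) = -kY1 A B := by simp only [kY1]; ring

theorem kF_J (A B : R) : kF B (-A) = kF A B := by simp only [kF]; ring

theorem kE4_J (A B : R) : kE4 (B ^ 5) ((-A) ^ 5) = kE4 (A ^ 5) (B ^ 5) := by simp only [kE4]; ring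

theorem kE6_J (A B : R) : kE6 (B ^ 5) ((-A) ^ 5) = kE6 (A ^ 5) (B ^ 5) := by simp only [kE6]; ring

theorem kPhi_J (t : R) (x : R × R) :
    kPhi t (x.2, -x.1) = ((kPhi t x).2, -(kPhi t x).1) := by
  simp only [kPhi, kAlpha, kBeta]; ext <;> ring

theorem kPhi_S (ζ t : R) (hζ5 : ζ ^ 5 = 1) (x : R × R) :
    kPhi t (ζ * x.1, x.2) = (ζ * (kPhi t x).1, (kPhi t x).2) := by
  have h : (ζ * x.1) ^ 5 = x.1 ^ 5 := by rw [mul_pow, hζ5, one_mul]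
  simp only [kPhi, h]; ext <;> ring

theorem kPhi_scal (u t : R) (hu : u ^ 10 = 1) (x : R × R) :
    kPhi t (u * x.1, u * x.2) = (u * (kPhi t x).1, u * (kPhi t x).2) := by
  simp only [kPhi, kAlpha, kBeta]
  ext
  · simp only []
    linear_combination (t * u * x.1 * (11 * (x.2 ^ 5) ^ 2 - 66 * x.1 ^ 5 * x.2 ^ 5 - (x.1 ^ 5) ^ 2)) * hu
  · simp only []
    linear_combination (-(t * u * x.2 * ((x.2 ^ 5) ^ 2 - 66 * x.1 ^ 5 * x.2 ^ 5 - 11 * (x.1 ^ 5) ^ 2))) * hu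

theorem kX0n_S (ζ A B : R) (hζ5 : ζ ^ 5 = 1) : kX0n ζ (ζ * A) B = kX0n ζ A B := by
  have h : (ζ * A) ^ 5 = A ^ 5 := by rw [mul_pow, hζ5, one_mul]
  have h10 : (ζ * A) ^ 10 = A ^ 10 := by
    calc (ζ * A) ^ 10 = ((ζ * A) ^ 5) ^ 2 := by ring
      _ = A ^ 10 := by rw [h]; ring
  simp only [kX0n, h, h10]

theorem kY0n_S (ζ A B : R) (hζ5 : ζ ^ 5 = 1) : kY0n ζ (ζ * A) B = kY0n ζ A B := by
  have h : (ζ * A) ^ 5 = A ^ 5 := by rw [mul_pow, hζ5, one_mul]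
  have h10 : (ζ * A) ^ 10 = A ^ 10 := by
    calc (ζ * A) ^ 10 = ((ζ * A) ^ 5) ^ 2 := by ring
      _ = A ^ 10 := by rw [h]; ring
  have h15 : (ζ * A) ^ 15 = A ^ 15 := by
    calc (ζ * A) ^ 15 = ((ζ * A) ^ 5) ^ 3 := by ring
      _ = A ^ 15 := by rw [h]; ring
  simp only [kY0n, h, h10, h15]

theorem kZeta_pow_five (ζ : R) (hζ : 1 + ζ + ζ ^ 2 + ζ ^ 3 + ζ ^ 4 = 0) : ζ ^ 5 = 1 := by
  linear_combination (ζ - 1) * hζ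

/-! ### ring homomorphisms -/

section map
variable {S : Type*} [CommRing S] (σ : R →+* S)

theorem map_kX1 (A B : R) : σ (kX1 A B) = kX1 (σ A) (σ B) := by
  simp only [kX1, map_add, map_sub, map_mul, map_pow, map_ofNat]

theorem map_kY1 (A B : R) : σ (kY1 A B) = kY1 (σ A) (σ B) := by
  simp only [kY1, map_add, map_sub, map_mul, map_pow, map_ofNat]

theorem map_kX0n (ζ A B : R) : σ (kX0n ζ A B) = kX0n (σ ζ) (σ A) (σ B) := by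
  simp only [kX0n, map_add, map_sub, map_neg, map_mul, map_pow, map_ofNat]

theorem map_kY0n (ζ A B : R) : σ (kY0n ζ A B) = kY0n (σ ζ) (σ A) (σ B) := by
  simp only [kY0n, map_add, map_sub, map_neg, map_mul, map_pow, map_ofNat]

theorem map_kX0 (ζ i5 A B : R) : σ (kX0 ζ i5 A B) = kX0 (σ ζ) (σ i5) (σ A) (σ B) := by
  simp only [kX0, map_mul, map_kX0n]

theorem map_kY0 (ζ i5 A B : R) : σ (kY0 ζ i5 A B) = kY0 (σ ζ) (σ i5) (σ A) (σ B) := by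
  simp only [kY0, map_mul, map_kY0n]

theorem map_kF (A B : R) : σ (kF A B) = kF (σ A) (σ B) := by
  simp only [kF, map_add, map_sub, map_mul, map_pow, map_ofNat]

theorem map_kPhi (t : R) (x : R × R) :
    Prod.map σ σ (kPhi t x) = kPhi (σ t) (Prod.map σ σ x) := by
  simp only [kPhi, kAlpha, kBeta, Prod.map, map_add, map_sub, map_mul, map_pow, map_ofNat, map_one]

end map

end Fermat.Agent.S52
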