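import Fermat.Agent.S52.Klein.CurveBasic
import Fermat.Agent.S52.Klein.Ident

/-!
# S52, piece K-Curve (3): the points `P`, `Q` of order 5 attached to a Klein level structure

`KLevel ζ i5 A B c4 c6` : `ζ` a primitive 5th root of unity, `i5 = 1/5`, `6 ≠ 0`,
`kE4 (A^5) (B^5) = c4`, `-kE6 (A^5) (B^5) = c6`, `kF A B ≠ 0`.
`kP h`, `kQ h` : the points `(kX1, kY1)`, `(kX0, kY0)` of `brShortW c4 c6`.

Main results: `kP_kQ_indep`, `kQ_twist`, `kOrb_matrix`.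
-/

set_option autoImplicit false

namespace Fermat.Agent.S52

open WeierstrassCurve WeierstrassCurve.Affine

section roots

variable {R : Type*} [CommRing R]

theorem kz_pow_five {ζ : R} (hζ : 1 + ζ + ζ ^ 2 + ζ ^ 3 + ζ ^ 4 = 0) : ζ ^ 5 = 1 := by
  linear_combination (ζ - 1) * hζ

theorem kz_pow_mod {ζ : R} (hζ : 1 + ζ + ζ ^ 2 + ζ ^ 3 + ζ ^ 4 = 0) (k : ℕ) :
    ζ ^ k = ζ ^ (k % 5) := by
  conv_lhs => rw [← Nat.div_add_mod k 5]
  rw [pow_add, pow_mul, kz_pow_five hζ, one_pow, one_mul]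

theorem kz_root2 {ζ : R} (hζ : 1 + ζ + ζ ^ 2 + ζ ^ 3 + ζ ^ 4 = 0) :
    1 + ζ ^ 2 + (ζ ^ 2) ^ 2 + (ζ ^ 2) ^ 3 + (ζ ^ 2) ^ 4 = 0 := by
  linear_combination (1 - ζ + ζ ^ 2 - ζ ^ 3 + ζ ^ 4) * hζ

theorem kz_root3 {ζ : R} (hζ : 1 + ζ + ζ ^ 2 + ζ ^ 3 + ζ ^ 4 = 0) :
    1 + ζ ^ 3 + (ζ ^ 3) ^ 2 + (ζ ^ 3) ^ 3 + (ζ ^ 3) ^ 4 = 0 := by
  linear_combination (1 - ζ + ζ ^ 3 - ζ ^ 4 + ζ ^ 5 - ζ ^ 7 + ζ ^ 8) * hζ

theorem kz_root4 {ζ : R} (hζ : 1 + ζ + ζ ^ 2 + ζ ^ 3 + ζ ^ 4 = 0) :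
    1 + ζ ^ 4 + (ζ ^ 4) ^ 2 + (ζ ^ 4) ^ 3 + (ζ ^ 4) ^ 4 = 0 := by
  linear_combination (1 - ζ + ζ ^ 4 - ζ ^ 6 + ζ ^ 8 - ζ ^ 11 + ζ ^ 12) * hζ

end roots

variable {F : Type*} [Field F]

/-- a Klein level structure for the curve with invariants `c4`, `c6`. -/
structure KLevel (ζ i5 A B c4 c6 : F) : Prop where
  hζ : 1 + ζ + ζ ^ 2 + ζ ^ 3 + ζ ^ 4 = 0
  h5 : 5 * i5 = 1
  h6 : (6 : F) ≠ 0
  h4 : kE4 (A ^ 5) (B ^ 5) = c4
  h6' : -kE6 (A ^ 5) (B ^ 5) = c6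
  hf : kF A B ≠ 0

namespace KLevel

variable {ζ i5 A B c4 c6 : F}

theorem two_ne (h : KLevel ζ i5 A B c4 c6) : (2 : F) ≠ 0 :=
  fun e => h.h6 (by linear_combination 3 * e)

theorem three_ne (h : KLevel ζ i5 A B c4 c6) : (3 : F) ≠ 0 :=
  fun e => h.h6 (by linear_combination 2 * e)

theorem c108_ne (h : KLevel ζ i5 A B c4 c6) : (108 : F) ≠ 0 := by
  have : (108 : F) = 2 ^ 2 * 3 ^ 3 := by norm_num
  rw [this]
  exact mul_ne_zero (pow_ne_zero _ h.two_ne) (pow_ne_zero _ h.three_ne)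

theorem c36_ne (h : KLevel ζ i5 A B c4 c6) : (36 : F) ≠ 0 := by
  have : (36 : F) = 2 ^ 2 * 3 ^ 2 := by norm_num
  rw [this]
  exact mul_ne_zero (pow_ne_zero _ h.two_ne) (pow_ne_zero _ h.three_ne)

theorem kY1_ne (h : KLevel ζ i5 A B c4 c6) : kY1 A B ≠ 0 := by
  intro e
  have := kY1_dvd A B
  rw [e, zero_mul] at this
  exact mul_ne_zero h.c108_ne (pow_ne_zero 2 h.hf) this.symm

theorem kY0_ne (h : KLevel ζ i5 A B c4 c6) : kY0 ζ i5 A B ≠ 0 := by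
  intro e
  have hc := kY0_dvd ζ i5 A B h.hζ h.h5
  rw [e, zero_mul] at hc
  have hq : B ^ 10 - 11 * A ^ 5 * B ^ 5 - A ^ 10 ≠ 0 := by
    intro e0
    apply h.hf
    rw [kF, e0, mul_zero]
  exact mul_ne_zero h.c108_ne (pow_ne_zero 2 hq) hc.symm

theorem kX0_ne_kX1 (h : KLevel ζ i5 A B c4 c6) : kX0 ζ i5 A B ≠ kX1 A B := by
  intro e
  have hc := kX0_sub_kX1_dvd ζ i5 A B h.hζ h.h5
  rw [e, sub_self, zero_mul] at hc
  exact mul_ne_zero h.c36_ne (pow_ne_zero 2 h.hf) hc.symm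

theorem kX0_ne_kX2 (h : KLevel ζ i5 A B c4 c6) : kX0 ζ i5 A B ≠ kX1 B (-A) := by
  intro e
  have hc := kX0_sub_kX2_dvd ζ i5 A B h.hζ h.h5
  rw [e, sub_self, zero_mul] at hc
  exact mul_ne_zero h.c36_ne (pow_ne_zero 2 h.hf) hc.symm

theorem eqP (h : KLevel ζ i5 A B c4 c6) :
    kY1 A B ^ 2 = kX1 A B ^ 3 - 27 * c4 * kX1 A B - 54 * c6 := by
  have := kY1_sq A B
  rw [← h.h4, ← h.h6']
  linear_combination this

theorem eqQ (h : KLevel ζ i5 A B c4 c6) :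
    kY0 ζ i5 A B ^ 2 = kX0 ζ i5 A B ^ 3 - 27 * c4 * kX0 ζ i5 A B - 54 * c6 := by
  have := kY0_sq ζ i5 A B h.hζ h.h5
  rw [← h.h4, ← h.h6']
  linear_combination this


/-! ### transport of level structures -/

theorem J (h : KLevel ζ i5 A B c4 c6) : KLevel ζ i5 B (-A) c4 c6 where
  hζ := h.hζ
  h5 := h.h5
  h6 := h.h6
  h4 := by rw [kE4_J]; exact h.h4
  h6' := by rw [kE6_J]; exact h.h6'
  hf := by rw [kF_J]; exact h.hf

theorem S (h : KLevel ζ i5 A B c4 c6) : KLevel ζ i5 (ζ * A) B c4 c6 where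
  hζ := h.hζ
  h5 := h.h5
  h6 := h.h6
  h4 := by rw [mul_pow, kz_pow_five h.hζ, one_mul]; exact h.h4
  h6' := by rw [mul_pow, kz_pow_five h.hζ, one_mul]; exact h.h6'
  hf := by
    have hz : ζ ≠ 0 := by
      intro e
      have := kz_pow_five h.hζ
      rw [e] at this
      simp at this
    have : kF (ζ * A) B = ζ * kF A B := by
      simp only [kF]
      linear_combination (ζ * A * B * (-11 * A ^ 5 * B ^ 5 - (ζ ^ 5 + 1) * A ^ 10))
        * kz_pow_five h.hζ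
    rw [this]
    exact mul_ne_zero hz h.hf

theorem scal (h : KLevel ζ i5 A B c4 c6) {u : F} (hu : u ^ 10 = 1) :
    KLevel ζ i5 (u * A) (u * B) c4 c6 where
  hζ := h.hζ
  h5 := h.h5
  h6 := h.h6
  h4 := by
    rw [kE4_hom, show u ^ 20 = (u ^ 10) ^ 2 by ring, hu, one_pow, one_mul]; exact h.h4
  h6' := by
    rw [kE6_hom, show u ^ 30 = (u ^ 10) ^ 3 by ring, hu, one_pow, one_mul]; exact h.h6'
  hf := by
    have hu0 : u ≠ 0 := by
      intro e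
      rw [e] at hu
      simp at hu
    rw [kF_hom]
    exact mul_ne_zero (pow_ne_zero _ hu0) h.hf

theorem T (h : KLevel ζ i5 A B c4 c6) :
    KLevel ζ i5 (kTA ζ i5 A B) (kTB ζ i5 A B) c4 c6 where
  hζ := h.hζ
  h5 := h.h5
  h6 := h.h6
  h4 := by rw [kE4_T ζ i5 A B h.hζ h.h5]; exact h.h4
  h6' := by rw [kE6_T ζ i5 A B h.hζ h.h5]; exact h.h6'
  hf := by rw [kF_T ζ i5 A B h.hζ h.h5]; exact h.hf

theorem pow2 (h : KLevel ζ i5 A B c4 c6) : KLevel (ζ ^ 2) i5 A B c4 c6 :=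
  { h with hζ := kz_root2 h.hζ }

theorem pow3 (h : KLevel ζ i5 A B c4 c6) : KLevel (ζ ^ 3) i5 A B c4 c6 :=
  { h with hζ := kz_root3 h.hζ }

theorem pow4 (h : KLevel ζ i5 A B c4 c6) : KLevel (ζ ^ 4) i5 A B c4 c6 :=
  { h with hζ := kz_root4 h.hζ }

end KLevel

variable {ζ i5 A B c4 c6 : F}

theorem kP_nonsingular (h : KLevel ζ i5 A B c4 c6) :
    (brShortW c4 c6).toAffine.Nonsingular (kX1 A B) (kY1 A B) :=
  kc_nonsingular c4 c6 h.two_ne h.eqP h.kY1_ne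

theorem kQ_nonsingular (h : KLevel ζ i5 A B c4 c6) :
    (brShortW c4 c6).toAffine.Nonsingular (kX0 ζ i5 A B) (kY0 ζ i5 A B) :=
  kc_nonsingular c4 c6 h.two_ne h.eqQ h.kY0_ne

variable [DecidableEq F]

/-- the point `P = (kX1, kY1)`. -/
noncomputable def kP (h : KLevel ζ i5 A B c4 c6) : (brShortW c4 c6).toAffine.Point :=
  Point.some (kX1 A B) (kY1 A B) (kP_nonsingular h)

/-- the point `Q = (kX0, kY0)`. -/
noncomputable def kQ (h : KLevel ζ i5 A B c4 c6) : (brShortW c4 c6).toAffine.Point :=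
  Point.some (kX0 ζ i5 A B) (kY0 ζ i5 A B) (kQ_nonsingular h)

theorem kP_eq_some (h : KLevel ζ i5 A B c4 c6) :
    kP h = Point.some (kX1 A B) (kY1 A B) (kP_nonsingular h) := rfl

theorem kQ_eq_some (h : KLevel ζ i5 A B c4 c6) :
    kQ h = Point.some (kX0 ζ i5 A B) (kY0 ζ i5 A B) (kQ_nonsingular h) := rfl

theorem kc_some_congr {x y x' y' : F} (h : (brShortW c4 c6).toAffine.Nonsingular x y)
    (h' : (brShortW c4 c6).toAffine.Nonsingular x' y') (ex : x = x') (ey : y = y') :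
    Point.some x y h = Point.some x' y' h' := by
  subst ex; subst ey; rfl

theorem kP_ne_zero (h : KLevel ζ i5 A B c4 c6) : kP h ≠ 0 := Point.some_ne_zero _

theorem kQ_ne_zero (h : KLevel ζ i5 A B c4 c6) : kQ h ≠ 0 := Point.some_ne_zero _

/-! ### multiples of `P` -/

theorem kP_add_self (h : KLevel ζ i5 A B c4 c6) : kP h + kP h = kP h.J := by
  rw [kP, kP]
  refine kc_double c4 c6 h.two_ne _ _ h.kY1_ne ?_ ?_
  · have := kX1_dbl A B
    rw [h.h4] at this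
    exact this
  · have := kY1_dbl A B
    rw [h.h4] at this
    exact this

theorem kP_JJ (h : KLevel ζ i5 A B c4 c6) : kP h.J.J = -kP h := by
  rw [kP, kP]
  have hn : (brShortW c4 c6).toAffine.Nonsingular (kX1 A B) (-kY1 A B) :=
    kc_nonsingular c4 c6 h.two_ne (by rw [neg_sq]; exact h.eqP) (neg_ne_zero.2 h.kY1_ne)
  rw [kc_neg_some c4 c6 (kP_nonsingular h) hn]
  refine kc_some_congr _ _ ?_ ?_
  · have := kX1_neg A B
    simpa using this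
  · have := kY1_neg A B
    simpa using this

theorem kP_four (h : KLevel ζ i5 A B c4 c6) : (4 : ℤ) • kP h = -kP h := by
  have e : (4 : ℤ) • kP h = (kP h + kP h) + (kP h + kP h) := by
    rw [show (4 : ℤ) = 1 + 1 + 1 + 1 by norm_num, add_smul, add_smul, add_smul, one_smul]
    abel
  rw [e, kP_add_self, kP_add_self, kP_JJ]

theorem kP_five (h : KLevel ζ i5 A B c4 c6) : (5 : ℤ) • kP h = 0 := by
  rw [show (5 : ℤ) = 4 + 1 by norm_num, add_smul, one_smul, kP_four]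
  exact neg_add_cancel _

/-! ### multiples of `Q` and the twist -/

theorem kQ_add_self (h : KLevel ζ i5 A B c4 c6) : kQ h + kQ h = kQ h.pow2 := by
  rw [kQ, kQ]
  refine kc_double c4 c6 h.two_ne _ _ h.kY0_ne ?_ ?_
  · have := kX0_dbl ζ i5 A B h.hζ h.h5
    rw [h.h4] at this
    exact this
  · have := kY0_dbl ζ i5 A B h.hζ h.h5
    rw [h.h4] at this
    exact this

theorem kQ_pow4 (h : KLevel ζ i5 A B c4 c6) : kQ h.pow4 = -kQ h := by
  rw [kQ, kQ]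
  have hn : (brShortW c4 c6).toAffine.Nonsingular (kX0 ζ i5 A B) (-kY0 ζ i5 A B) :=
    kc_nonsingular c4 c6 h.two_ne (by rw [neg_sq]; exact h.eqQ) (neg_ne_zero.2 h.kY0_ne)
  rw [kc_neg_some c4 c6 (kQ_nonsingular h) hn]
  refine kc_some_congr _ _ ?_ ?_
  · rw [kX0, kX0, kX0n_twist4 ζ A B h.hζ]
  · rw [kY0, kY0, kY0n_twist4 ζ A B h.hζ, mul_neg]

/-- the point `Q` only depends on the value of `ζ`. -/
theorem kQ_congr {ζ' : F} (h : KLevel ζ i5 A B c4 c6) (h' : KLevel ζ' i5 A B c4 c6)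
    (e : ζ = ζ') : kQ h = kQ h' := by
  subst e; rfl

theorem kQ_two (h : KLevel ζ i5 A B c4 c6) : (2 : ℤ) • kQ h = kQ h.pow2 := by
  rw [show (2 : ℤ) = 1 + 1 by norm_num, add_smul, one_smul, kQ_add_self]

theorem kQ_four (h : KLevel ζ i5 A B c4 c6) : (4 : ℤ) • kQ h = -kQ h := by
  have e : (4 : ℤ) • kQ h = (2 : ℤ) • ((2 : ℤ) • kQ h) := by
    rw [smul_smul]; norm_num
  rw [e, kQ_two, kQ_two]
  have e4 : (ζ ^ 2) ^ 2 = ζ ^ 4 := by ring
  rw [kQ_congr h.pow2.pow2 h.pow4 e4, kQ_pow4]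

theorem kQ_five (h : KLevel ζ i5 A B c4 c6) : (5 : ℤ) • kQ h = 0 := by
  rw [show (5 : ℤ) = 4 + 1 by norm_num, add_smul, one_smul, kQ_four]
  exact neg_add_cancel _

theorem kQ_pow3 (h : KLevel ζ i5 A B c4 c6) : kQ h.pow3 = (3 : ℤ) • kQ h := by
  have e3 : (ζ ^ 4) ^ 2 = ζ ^ 3 := by
    have := kz_pow_five h.hζ
    calc (ζ ^ 4) ^ 2 = ζ ^ 5 * ζ ^ 3 := by ring
      _ = ζ ^ 3 := by rw [this, one_mul]
  rw [← kQ_congr h.pow4.pow2 h.pow3 e3, ← kQ_two h.pow4, kQ_pow4]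
  have h5 := kQ_five h
  have : (3 : ℤ) • kQ h = (5 : ℤ) • kQ h + (2 : ℤ) • (-kQ h) := by
    rw [smul_neg, show (5 : ℤ) = 3 + 2 by norm_num, add_smul]
    abel
  rw [this, h5, zero_add]

theorem kc_zsmul_mod {G : Type*} [AddCommGroup G] {P : G} (h5 : (5 : ℤ) • P = 0) (a : ℤ) :
    a • P = (a % 5) • P := by
  conv_lhs => rw [← Int.mul_ediv_add_emod a 5]
  rw [add_smul, mul_comm, mul_smul, h5, smul_zero, zero_add]

/-- **twist**: the point `Q` for `ζ^k` is `k • Q`. -/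
theorem kQ_twist (h : KLevel ζ i5 A B c4 c6) (k : ℕ) (hk : ¬ 5 ∣ k)
    (h' : KLevel (ζ ^ k) i5 A B c4 c6) : kQ h' = (k : ℤ) • kQ h := by
  have hmod : ((k : ℤ) % 5) = ((k % 5 : ℕ) : ℤ) := by norm_cast
  rw [kc_zsmul_mod (kQ_five h) (k : ℤ), hmod]
  have hr : k % 5 < 5 := Nat.mod_lt _ (by norm_num)
  have hr0 : k % 5 ≠ 0 := fun e => hk (Nat.dvd_of_mod_eq_zero e)
  have hz := kz_pow_mod h.hζ k
  generalize k % 5 = r at hr hr0 hz
  interval_cases r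
  · exact absurd rfl hr0
  · rw [pow_one] at hz
    rw [kQ_congr h' h hz]; simp
  · rw [kQ_congr h' h.pow2 hz, ← kQ_two h]; rfl
  · rw [kQ_congr h' h.pow3 hz, kQ_pow3 h]; rfl
  · rw [kQ_congr h' h.pow4 hz, kQ_pow4 h, ← kQ_four h]; rfl

/-! ### independence -/

theorem kQ_ne_zsmul_kP (h : KLevel ζ i5 A B c4 c6) (a : ℤ) : kQ h ≠ a • kP h := by
  rw [kc_zsmul_mod (kP_five h) a]
  have h0 : 0 ≤ a % 5 := Int.emod_nonneg _ (by norm_num)
  have h1 : a % 5 < 5 := Int.emod_lt_of_pos _ (by norm_num)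
  generalize a % 5 = r at h0 h1
  have hneg : ∀ (x y : F) (hh : (brShortW c4 c6).toAffine.Nonsingular x y),
      ∃ y' hh', -(Point.some x y hh : (brShortW c4 c6).toAffine.Point) = Point.some x y' hh' := by
    intro x y hh
    exact ⟨_, _, Point.neg_some hh⟩
  interval_cases r
  · rw [zero_smul]; exact kQ_ne_zero h
  · rw [one_smul, kQ, kP]
    intro e
    simp only [Point.some.injEq] at e
    exact h.kX0_ne_kX1 e.1
  · rw [show (2 : ℤ) = 1 + 1 by norm_num, add_smul, one_smul, kP_add_self, kQ, kP]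
    intro e
    simp only [Point.some.injEq] at e
    exact h.kX0_ne_kX2 e.1
  · have : (3 : ℤ) • kP h = -((2 : ℤ) • kP h) := by
      have h5 := kP_five h
      rw [show (5 : ℤ) = 3 + 2 by norm_num, add_smul] at h5
      exact eq_neg_of_add_eq_zero_left h5
    rw [this, show (2 : ℤ) = 1 + 1 by norm_num, add_smul, one_smul, kP_add_self, kQ, kP]
    obtain ⟨y', hh', e'⟩ := hneg _ _ (kP_nonsingular h.J)
    rw [e']
    intro e
    simp only [Point.some.injEq] at e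
    exact h.kX0_ne_kX2 e.1
  · rw [kP_four, kQ, kP]
    obtain ⟨y', hh', e'⟩ := hneg _ _ (kP_nonsingular h)
    rw [e']
    intro e
    simp only [Point.some.injEq] at e
    exact h.kX0_ne_kX1 e.1

theorem kc_exists_inv_mod5 (b : ℤ) (hb : ¬ (5 : ℤ) ∣ b) : ∃ c : ℤ, (5 : ℤ) ∣ c * b - 1 := by
  have h0 : 0 ≤ b % 5 := Int.emod_nonneg _ (by norm_num)
  have h1 : b % 5 < 5 := Int.emod_lt_of_pos _ (by norm_num)
  have hb' : b % 5 ≠ 0 := fun e => hb (Int.dvd_of_emod_eq_zero e)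
  have key : ∀ c : ℤ, (c * b - 1) % 5 = (c * (b % 5) - 1) % 5 := by
    intro c
    rw [Int.sub_emod, Int.mul_emod, Int.sub_emod (c * (b % 5)), Int.mul_emod c (b % 5),
      Int.emod_emod_of_dvd _ (dvd_refl 5)]
  generalize hr : b % 5 = r at h0 h1 hb' key
  interval_cases r
  · exact absurd rfl hb'
  · exact ⟨1, Int.dvd_of_emod_eq_zero (by rw [key]; norm_num)⟩
  · exact ⟨3, Int.dvd_of_emod_eq_zero (by rw [key]; norm_num)⟩
  · exact ⟨2, Int.dvd_of_emod_eq_zero (by rw [key]; norm_num)⟩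
  · exact ⟨4, Int.dvd_of_emod_eq_zero (by rw [key]; norm_num)⟩

theorem kc_smul_of_dvd {G : Type*} [AddCommGroup G] {P : G} (h5 : (5 : ℤ) • P = 0) {a : ℤ}
    (ha : (5 : ℤ) ∣ a) : a • P = 0 := by
  obtain ⟨c, rfl⟩ := ha
  rw [mul_comm, mul_smul, h5, smul_zero]

/-- **independence** of `P` and `Q` modulo 5. -/
theorem kP_kQ_indep (h : KLevel ζ i5 A B c4 c6) (a b : ℤ)
    (hab : a • kP h + b • kQ h = 0) : (5 : ℤ) ∣ a ∧ (5 : ℤ) ∣ b := by
  have hb : (5 : ℤ) ∣ b := by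
    by_contra hb
    obtain ⟨c, hc⟩ := kc_exists_inv_mod5 b hb
    have e1 : (c * b) • kQ h = kQ h := by
      have : (c * b - 1) • kQ h = 0 := kc_smul_of_dvd (kQ_five h) hc
      rw [sub_smul, one_smul] at this
      exact sub_eq_zero.1 this
    have e2 : c • (a • kP h + b • kQ h) = 0 := by rw [hab, smul_zero]
    rw [smul_add, smul_smul, smul_smul, e1] at e2
    have : kQ h = (-(c * a)) • kP h := by
      rw [neg_smul]
      exact eq_neg_of_add_eq_zero_right e2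
    exact kQ_ne_zsmul_kP h _ this
  refine ⟨?_, hb⟩
  by_contra ha
  rw [kc_smul_of_dvd (kQ_five h) hb, add_zero] at hab
  obtain ⟨c, hc⟩ := kc_exists_inv_mod5 a ha
  have e1 : (c * a) • kP h = kP h := by
    have : (c * a - 1) • kP h = 0 := kc_smul_of_dvd (kP_five h) hc
    rw [sub_smul, one_smul] at this
    exact sub_eq_zero.1 this
  have : kP h = 0 := by
    rw [← e1, mul_smul, hab, smul_zero]
  exact kP_ne_zero h this

/-! ### the generators act on `(P, Q)` by integer matrices -/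

/-- `y` carries a level structure whenever `x` does, and `(P, Q)(y) = m · (P, Q)(x)`. -/
def KRel (ζ i5 : F) (m00 m01 m10 m11 : ℤ) (x y : F × F) : Prop :=
  ∀ (c4 c6 : F) (hx : KLevel ζ i5 x.1 x.2 c4 c6),
    ∃ hy : KLevel ζ i5 y.1 y.2 c4 c6,
      kP hy = m00 • kP hx + m01 • kQ hx ∧ kQ hy = m10 • kP hx + m11 • kQ hx

theorem krel_refl (ζ i5 : F) (x : F × F) : KRel ζ i5 1 0 0 1 x x := by
  intro c4 c6 hx
  exact ⟨hx, by simp, by simp⟩

theorem krel_trans {ζ i5 : F} {m00 m01 m10 m11 s00 s01 s10 s11 : ℤ} {x y z : F × F}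
    (h1 : KRel ζ i5 m00 m01 m10 m11 x y) (h2 : KRel ζ i5 s00 s01 s10 s11 y z) :
    KRel ζ i5 (s00 * m00 + s01 * m10) (s00 * m01 + s01 * m11)
      (s10 * m00 + s11 * m10) (s10 * m01 + s11 * m11) x z := by
  intro c4 c6 hx
  obtain ⟨hy, e1, e2⟩ := h1 c4 c6 hx
  obtain ⟨hz, f1, f2⟩ := h2 c4 c6 hy
  refine ⟨hz, ?_, ?_⟩
  · rw [f1, e1, e2]
    simp only [smul_add, smul_smul, add_smul]
    abel
  · rw [f2, e1, e2]
    simp only [smul_add, smul_smul, add_smul]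
    abel

theorem krel_S (ζ i5 : F) (x : F × F) : KRel ζ i5 1 1 0 1 x (ζ * x.1, x.2) := by
  obtain ⟨A, B⟩ := x
  intro c4 c6 hx
  have hx' : KLevel ζ i5 A B c4 c6 := hx
  refine ⟨hx'.S, ?_, ?_⟩
  · have e : kP hx'.S = kP hx' + kQ hx' := by
      rw [kP, kP, kQ]
      symm
      exact kc_chord c4 c6 _ _ _ hx'.kX0_ne_kX1.symm
        (kX_chord ζ i5 A B hx'.hζ hx'.h5) (kY_chord ζ i5 A B hx'.hζ hx'.h5)
    rw [one_smul, one_smul]
    exact e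
  · have e : kQ hx'.S = kQ hx' := by
      rw [kQ, kQ]
      refine kc_some_congr _ _ ?_ ?_
      · rw [kX0, kX0, kX0n_S ζ A B (kz_pow_five hx'.hζ)]
      · rw [kY0, kY0, kY0n_S ζ A B (kz_pow_five hx'.hζ)]
    rw [zero_smul, one_smul, zero_add]
    exact e

theorem krel_T (ζ i5 : F) (x : F × F) : KRel ζ i5 0 1 (-1) 0 x (kT ζ i5 x) := by
  obtain ⟨A, B⟩ := x
  intro c4 c6 hx
  have hx' : KLevel ζ i5 A B c4 c6 := hx
  refine ⟨hx'.T, ?_, ?_⟩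
  · have e : kP hx'.T = kQ hx' := by
      rw [kP, kQ]
      exact kc_some_congr _ _ (kX1_T ζ i5 A B hx'.hζ hx'.h5) (kY1_T ζ i5 A B hx'.hζ hx'.h5)
    rw [zero_smul, one_smul, zero_add]
    exact e
  · have hn : (brShortW c4 c6).toAffine.Nonsingular (kX1 A B) (-kY1 A B) :=
      kc_nonsingular c4 c6 hx'.two_ne (by rw [neg_sq]; exact hx'.eqP) (neg_ne_zero.2 hx'.kY1_ne)
    have e : kQ hx'.T = -kP hx' := by
      rw [kQ, kP, kc_neg_some c4 c6 (kP_nonsingular hx') hn]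
      exact kc_some_congr _ _ (kX0_T ζ i5 A B hx'.hζ hx'.h5) (kY0_T ζ i5 A B hx'.hζ hx'.h5)
    rw [neg_smul, one_smul, zero_smul, add_zero]
    exact e

theorem krel_J (ζ i5 : F) (x : F × F) : KRel ζ i5 2 0 0 (-2) x (x.2, -x.1) := by
  obtain ⟨A, B⟩ := x
  intro c4 c6 hx
  have hx' : KLevel ζ i5 A B c4 c6 := hx
  refine ⟨hx'.J, ?_, ?_⟩
  · have e : kP hx'.J = (2 : ℤ) • kP hx' := by
      rw [show (2 : ℤ) = 1 + 1 by norm_num, add_smul, one_smul, kP_add_self]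
    rw [zero_smul, add_zero]
    exact e
  · have hn : (brShortW c4 c6).toAffine.Nonsingular (kX0 (ζ ^ 2) i5 A B)
        (-kY0 (ζ ^ 2) i5 A B) :=
      kc_nonsingular c4 c6 hx'.two_ne (by rw [neg_sq]; exact hx'.pow2.eqQ)
        (neg_ne_zero.2 hx'.pow2.kY0_ne)
    have e : kQ hx'.J = -kQ hx'.pow2 := by
      rw [kQ, kQ, kc_neg_some c4 c6 (kQ_nonsingular hx'.pow2) hn]
      refine kc_some_congr _ _ ?_ ?_
      · rw [kX0, kX0, kX0n_J ζ A B hx'.hζ]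
      · rw [kY0, kY0, kY0n_J ζ A B hx'.hζ, mul_neg]
    rw [zero_smul, zero_add, neg_smul, kQ_two]
    exact e

theorem krel_scal_pos (ζ i5 : F) (x : F × F) (u : F) (hu : u ^ 10 = 1) (hu5 : u ^ 5 = 1) :
    KRel ζ i5 1 0 0 1 x (u * x.1, u * x.2) := by
  obtain ⟨A, B⟩ := x
  have hu15 : u ^ 15 = 1 := by rw [show u ^ 15 = u ^ 10 * u ^ 5 by ring, hu, hu5, one_mul]
  intro c4 c6 hx
  have hx' : KLevel ζ i5 A B c4 c6 := hx
  refine ⟨hx'.scal hu, ?_, ?_⟩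
  · rw [one_smul, zero_smul, add_zero, kP, kP]
    refine kc_some_congr _ _ ?_ ?_
    · rw [kX1_hom, hu, one_mul]
    · rw [kY1_hom, hu15, one_mul]
  · rw [one_smul, zero_smul, zero_add, kQ, kQ]
    refine kc_some_congr _ _ ?_ ?_
    · rw [kX0, kX0, kX0n_hom, hu, one_mul]
    · rw [kY0, kY0, kY0n_hom, hu15, one_mul]

theorem krel_scal_neg (ζ i5 : F) (x : F × F) (u : F) (hu : u ^ 10 = 1) (hu5 : u ^ 5 = -1) :
    KRel ζ i5 (-1) 0 0 (-1) x (u * x.1, u * x.2) := by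
  obtain ⟨A, B⟩ := x
  have hu15 : u ^ 15 = -1 := by
    rw [show u ^ 15 = u ^ 10 * u ^ 5 by ring, hu, hu5, one_mul]
  intro c4 c6 hx
  have hx' : KLevel ζ i5 A B c4 c6 := hx
  have hnP : (brShortW c4 c6).toAffine.Nonsingular (kX1 A B) (-kY1 A B) :=
    kc_nonsingular c4 c6 hx'.two_ne (by rw [neg_sq]; exact hx'.eqP) (neg_ne_zero.2 hx'.kY1_ne)
  have hnQ : (brShortW c4 c6).toAffine.Nonsingular (kX0 ζ i5 A B) (-kY0 ζ i5 A B) :=
    kc_nonsingular c4 c6 hx'.two_ne (by rw [neg_sq]; exact hx'.eqQ) (neg_ne_zero.2 hx'.kY0_ne)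
  refine ⟨hx'.scal hu, ?_, ?_⟩
  · rw [neg_smul, one_smul, zero_smul, add_zero, kP, kP,
      kc_neg_some c4 c6 (kP_nonsingular hx') hnP]
    refine kc_some_congr _ _ ?_ ?_
    · rw [kX1_hom, hu, one_mul]
    · rw [kY1_hom, hu15]; ring
  · rw [neg_smul, one_smul, zero_smul, zero_add, kQ, kQ,
      kc_neg_some c4 c6 (kQ_nonsingular hx') hnQ]
    refine kc_some_congr _ _ ?_ ?_
    · rw [kX0, kX0, kX0n_hom, hu, one_mul]
    · rw [kY0, kY0, kY0n_hom, hu15]; ring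

/-- the relation `KRel` along the whole family `kPhi t`. -/
def KRelT (ζ i5 : F) (m00 m01 m10 m11 : ℤ) (x y : F × F) : Prop :=
  ∀ t : F, KRel ζ i5 m00 m01 m10 m11 (kPhi t x) (kPhi t y)

theorem krelT_step {ζ i5 : F} {x y : F × F} (h : KStep ζ i5 x y) :
    ∃ m00 m01 m10 m11 : ℤ, KRelT ζ i5 m00 m01 m10 m11 x y := by
  cases h with
  | S =>
    refine ⟨1, 1, 0, 1, fun t c4 c6 hx => ?_⟩
    rw [kPhi_S ζ t (kz_pow_five hx.hζ) x]
    exact krel_S ζ i5 (kPhi t x) c4 c6 hx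
  | T =>
    refine ⟨0, 1, -1, 0, fun t c4 c6 hx => ?_⟩
    rw [kPhi_T ζ i5 t x hx.hζ hx.h5]
    exact krel_T ζ i5 (kPhi t x) c4 c6 hx
  | J =>
    refine ⟨2, 0, 0, -2, fun t c4 c6 hx => ?_⟩
    rw [kPhi_J t x]
    exact krel_J ζ i5 (kPhi t x) c4 c6 hx
  | scal u hu =>
    have hsq : (u ^ 5 - 1) * (u ^ 5 + 1) = 0 := by linear_combination hu
    rcases mul_eq_zero.1 hsq with h1 | h1
    · refine ⟨1, 0, 0, 1, fun t c4 c6 hx => ?_⟩
      rw [kPhi_scal u t hu x]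
      exact krel_scal_pos ζ i5 (kPhi t x) u hu (sub_eq_zero.1 h1) c4 c6 hx
    · refine ⟨-1, 0, 0, -1, fun t c4 c6 hx => ?_⟩
      rw [kPhi_scal u t hu x]
      exact krel_scal_neg ζ i5 (kPhi t x) u hu (eq_neg_of_add_eq_zero_left h1) c4 c6 hx

theorem krelT_of_orb {ζ i5 : F} {x y : F × F} (h : KOrb ζ i5 x y) :
    ∃ m00 m01 m10 m11 : ℤ, KRelT ζ i5 m00 m01 m10 m11 x y := by
  induction h with
  | refl => exact ⟨1, 0, 0, 1, fun t => krel_refl ζ i5 _⟩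
  | tail _ hstep ih =>
    obtain ⟨m00, m01, m10, m11, hm⟩ := ih
    obtain ⟨s00, s01, s10, s11, hs⟩ := krelT_step hstep
    exact ⟨_, _, _, _, fun t => krel_trans (hm t) (hs t)⟩

set_option linter.unusedVariables false in
/-- **the orbit acts by ONE integer matrix on `(P, Q)` along the whole family `kPhi t`.** -/
theorem kOrb_matrix {A' B' : F} (h : KLevel ζ i5 A B c4 c6)
    (horb : KOrb ζ i5 (A, B) (A', B')) :
    ∃ m00 m01 m10 m11 : ℤ, ∀ (t d4 d6 : F)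
      (ht : KLevel ζ i5 (kPhi t (A, B)).1 (kPhi t (A, B)).2 d4 d6)
      (ht' : KLevel ζ i5 (kPhi t (A', B')).1 (kPhi t (A', B')).2 d4 d6),
      kP ht' = m00 • kP ht + m01 • kQ ht ∧ kQ ht' = m10 • kP ht + m11 • kQ ht := by
  obtain ⟨m00, m01, m10, m11, hm⟩ := krelT_of_orb horb
  refine ⟨m00, m01, m10, m11, fun t d4 d6 ht ht' => ?_⟩
  obtain ⟨hy, e1, e2⟩ := hm t d4 d6 ht
  exact ⟨e1, e2⟩

end Fermat.Agent.S52
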