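import Fermat.Agent.S52.Plan

/-!
# S52, piece K: Klein's icosahedral forms — definitions (GENERATED by NOTES/S52-tools/kgen.py)

`P = (kX1, kY1)` and `Q = (kX0, kY0)` are two independent points of order 5 on the curve
`Y² = X³ - 27·E₄·X + 54·E₆` attached to `(A, B)` (here `E₄ = kE4 (A^5) (B^5)`, `E₆ = kE6 (A^5) (B^5)`),
`ζ` is a primitive 5th root of unity (`1 + ζ + ζ² + ζ³ + ζ⁴ = 0`) and `i5 = 1/5`.
`kTA, kTB` : the two components of Klein's transformation `T`.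
-/

set_option autoImplicit false

namespace Fermat.Agent.S52

variable {R : Type*} [CommRing R]

/-- Klein's form `f` of degree 12 (`f^5 = Δ`). -/
def kF (A B : R) : R := A * B * (B ^ 10 - 11 * A ^ 5 * B ^ 5 - A ^ 10)

/-- `x`-coordinate of the point `P = P_(1,0)` of order 5 (a form of degree 10). -/
def kX1 (A B : R) : R :=
  3 * A ^ 10 + 36 * A ^ 8 * B ^ 2 - 36 * A ^ 7 * B ^ 3 + 72 * A ^ 6 * B ^ 4 + 90 * A ^ 5 * B ^ 5 +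
  180 * A ^ 4 * B ^ 6 + 108 * A ^ 3 * B ^ 7 + 72 * A ^ 2 * B ^ 8 + 36 * A * B ^ 9 + 3 * B ^ 10

/-- `y`-coordinate of the point `P = P_(1,0)` of order 5 (a form of degree 15). -/
def kY1 (A B : R) : R :=
  108 * A ^ 13 * B ^ 2 + 108 * A ^ 12 * B ^ 3 + 432 * A ^ 11 * B ^ 4 + 540 * A ^ 9 * B ^ 6 + 648 *
  A ^ 8 * B ^ 7 + 2268 * A ^ 7 * B ^ 8 + 3132 * A ^ 6 * B ^ 9 + 2700 * A ^ 5 * B ^ 10 + 1620 * A ^
  4 * B ^ 11 + 972 * A ^ 3 * B ^ 12 + 432 * A ^ 2 * B ^ 13 + 108 * A * B ^ 14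

/-- `5 ·` the `x`-coordinate of the point `Q = P_(0,1)` of order 5. -/
def kX0n (ζ A B : R) : R :=
  -36 * ζ ^ 3 * A ^ 10 - 396 * ζ ^ 3 * A ^ 5 * B ^ 5 + 36 * ζ ^ 3 * B ^ 10 - 36 * ζ ^ 2 * A ^ 10 -
  396 * ζ ^ 2 * A ^ 5 * B ^ 5 + 36 * ζ ^ 2 * B ^ 10 - 93 * A ^ 10 - 198 * A ^ 5 * B ^ 5 - 57 * B ^
  10

/-- `5 ·` the `y`-coordinate of the point `Q = P_(0,1)` of order 5. -/
def kY0n (ζ A B : R) : R :=
  -324 * ζ ^ 3 * A ^ 15 - 3456 * ζ ^ 3 * A ^ 10 * B ^ 5 + 1512 * ζ ^ 3 * A ^ 5 * B ^ 10 - 108 * ζ ^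
  3 * B ^ 15 + 108 * ζ ^ 2 * A ^ 15 + 1512 * ζ ^ 2 * A ^ 10 * B ^ 5 + 3456 * ζ ^ 2 * A ^ 5 * B ^ 10
  - 324 * ζ ^ 2 * B ^ 15 - 216 * ζ * A ^ 15 - 1944 * ζ * A ^ 10 * B ^ 5 + 4968 * ζ * A ^ 5 * B ^ 10
  - 432 * ζ * B ^ 15 - 108 * A ^ 15 - 972 * A ^ 10 * B ^ 5 + 2484 * A ^ 5 * B ^ 10 - 216 * B ^ 15

/-- `x`-coordinate of `Q = P_(0,1)`. -/
def kX0 (ζ i5 A B : R) : R := i5 * kX0n ζ A B

/-- `y`-coordinate of `Q = P_(0,1)`. -/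
def kY0 (ζ i5 A B : R) : R := i5 * kY0n ζ A B

/-- `√5 = ζ + ζ⁴ - ζ² - ζ³`. -/
def kS5 (ζ : R) : R := ζ + ζ ^ 4 - ζ ^ 2 - ζ ^ 3

/-- first component of `T' = √5 · T` (integral entries, reduced modulo `Φ₅(ζ)`). -/
def kTA' (ζ A B : R) : R := (-1 - 2 * ζ - ζ ^ 2 - ζ ^ 3) * A + (ζ ^ 2 - ζ ^ 3) * B

/-- second component of `T' = √5 · T`. -/
def kTB' (ζ A B : R) : R := (ζ ^ 2 - ζ ^ 3) * A + (1 + 2 * ζ + ζ ^ 2 + ζ ^ 3) * B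

/-- first component of Klein's `T = (1/√5) T'`. -/
def kTA (ζ i5 A B : R) : R := i5 * kS5 ζ * kTA' ζ A B

/-- second component of Klein's `T = (1/√5) T'`. -/
def kTB (ζ i5 A B : R) : R := i5 * kS5 ζ * kTB' ζ A B

theorem kF_pow_five (A B : R) : kF A B ^ 5 = kD (A ^ 5) (B ^ 5) := by
  simp only [kF, kD]; ring

/-- the covariant `Φ_t(x) = x + t ∇^⊥ f(x)`. -/
def kPhi (t : R) (x : R × R) : R × R :=
  (x.1 * kAlpha t (x.1 ^ 5) (x.2 ^ 5), x.2 * kBeta t (x.1 ^ 5) (x.2 ^ 5))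

/-- Klein's transformation `T` on pairs. -/
def kT (ζ i5 : R) (x : R × R) : R × R := (kTA ζ i5 x.1 x.2, kTB ζ i5 x.1 x.2)

/-- one step of the icosahedral group action (generators `S`, `T`, `J`, scalars in `μ₁₀`). -/
inductive KStep (ζ i5 : R) : R × R → R × R → Prop
  | S (x : R × R) : KStep ζ i5 x (ζ * x.1, x.2)
  | T (x : R × R) : KStep ζ i5 x (kT ζ i5 x)
  | J (x : R × R) : KStep ζ i5 x (x.2, -x.1)
  | scal (x : R × R) (u : R) (hu : u ^ 10 = 1) : KStep ζ i5 x (u * x.1, u * x.2)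

/-- the orbit relation: `x'` is obtained from `x` by a word in `S`, `T`, `J` and scalars of `μ₁₀`. -/
def KOrb (ζ i5 : R) : R × R → R × R → Prop := Relation.ReflTransGen (KStep ζ i5)

end Fermat.Agent.S52
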