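import Fermat.Agent.S52.Bridge
import Fermat.Agent.S52.Klein.Defs

/-!
# S52, piece K-Curve (1): points on the short model `Y² = X³ − 27 c₄ X − 54 c₆`

Generic lemmas on `brShortW c4 c6` over a field with `2 ≠ 0`: nonsingularity from `Y ≠ 0`,
negation, the duplication rule and the chord rule in "cleared denominators" form.
-/

set_option autoImplicit false

namespace Fermat.Agent.S52

open WeierstrassCurve WeierstrassCurve.Affine

section short

variable {F : Type*} [Field F] [DecidableEq F] (c4 c6 : F)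

omit [DecidableEq F] in
theorem kc_equation_iff (x y : F) :
    (brShortW c4 c6).toAffine.Equation x y ↔ y ^ 2 = x ^ 3 - 27 * c4 * x - 54 * c6 := by
  rw [Affine.equation_iff]
  simp only [brShortW]
  constructor
  · intro h; linear_combination h
  · intro h; linear_combination h

omit [DecidableEq F] in
theorem kc_negY (x y : F) : (brShortW c4 c6).toAffine.negY x y = -y := by
  simp [Affine.negY, brShortW]

omit [DecidableEq F] in
theorem kc_nonsingular {x y : F} (h2 : (2 : F) ≠ 0)
    (he : y ^ 2 = x ^ 3 - 27 * c4 * x - 54 * c6) (hy : y ≠ 0) :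
    (brShortW c4 c6).toAffine.Nonsingular x y := by
  rw [Affine.nonsingular_iff]
  refine ⟨(kc_equation_iff c4 c6 x y).2 he, Or.inr ?_⟩
  simp only [brShortW]
  intro h
  apply hy
  have : 2 * y = 0 := by linear_combination h
  exact (mul_eq_zero.1 this).resolve_left h2

theorem kc_neg_some {x y : F} (h : (brShortW c4 c6).toAffine.Nonsingular x y)
    (h' : (brShortW c4 c6).toAffine.Nonsingular x (-y)) :
    -(Point.some x y h) = Point.some x (-y) h' := by
  rw [Point.neg_some]
  simp only [Point.some.injEq, true_and]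
  exact kc_negY c4 c6 x y

/-- duplication rule with cleared denominators. -/
theorem kc_double {x y x₂ y₂ : F} (h2 : (2 : F) ≠ 0)
    (h : (brShortW c4 c6).toAffine.Nonsingular x y)
    (h₂ : (brShortW c4 c6).toAffine.Nonsingular x₂ y₂) (hy : y ≠ 0)
    (hx : x₂ * (2 * y) ^ 2 = (3 * x ^ 2 - 27 * c4) ^ 2 - 2 * x * (2 * y) ^ 2)
    (hY : y₂ * (2 * y) = -((3 * x ^ 2 - 27 * c4) * (x₂ - x) + 2 * y ^ 2)) :
    Point.some x y h + Point.some x y h = Point.some x₂ y₂ h₂ := by
  have h2y : 2 * y ≠ 0 := mul_ne_zero h2 hy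
  have hne : y ≠ (brShortW c4 c6).toAffine.negY x y := by
    rw [kc_negY]
    intro e
    apply h2y
    linear_combination e
  have hxy : ¬(x = x ∧ y = (brShortW c4 c6).toAffine.negY x y) := fun hh => hne hh.2
  rw [Point.add_some hxy]
  have hs : (brShortW c4 c6).toAffine.slope x x y y = (3 * x ^ 2 - 27 * c4) / (2 * y) := by
    rw [Affine.slope_of_Y_ne rfl hne, kc_negY]
    simp only [brShortW]
    congr 1
    · ring
    · ring
  simp only [Point.some.injEq]
  rw [hs]
  have hX : (brShortW c4 c6).toAffine.addX x x ((3 * x ^ 2 - 27 * c4) / (2 * y)) = x₂ := by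
    simp only [Affine.addX, brShortW]
    field_simp
    linear_combination -hx
  refine ⟨hX, ?_⟩
  simp only [Affine.addY, Affine.negAddY, Affine.negY]
  rw [hX]
  simp only [brShortW]
  field_simp
  linear_combination -hY

/-- chord rule with cleared denominators. -/
theorem kc_chord {x₁ y₁ x₂ y₂ x₃ y₃ : F}
    (h₁ : (brShortW c4 c6).toAffine.Nonsingular x₁ y₁)
    (h₂ : (brShortW c4 c6).toAffine.Nonsingular x₂ y₂)
    (h₃ : (brShortW c4 c6).toAffine.Nonsingular x₃ y₃) (hne : x₁ ≠ x₂)
    (hx : x₃ * (x₁ - x₂) ^ 2 = (y₁ - y₂) ^ 2 - (x₁ + x₂) * (x₁ - x₂) ^ 2)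
    (hY : y₃ * (x₁ - x₂) = -((y₁ - y₂) * (x₃ - x₁) + y₁ * (x₁ - x₂))) :
    Point.some x₁ y₁ h₁ + Point.some x₂ y₂ h₂ = Point.some x₃ y₃ h₃ := by
  have hd : x₁ - x₂ ≠ 0 := sub_ne_zero.2 hne
  have hxy : ¬(x₁ = x₂ ∧ y₁ = (brShortW c4 c6).toAffine.negY x₂ y₂) := fun hh => hne hh.1
  rw [Point.add_some hxy]
  have hs : (brShortW c4 c6).toAffine.slope x₁ x₂ y₁ y₂ = (y₁ - y₂) / (x₁ - x₂) :=
    Affine.slope_of_X_ne hne
  simp only [Point.some.injEq]
  rw [hs]
  have hX : (brShortW c4 c6).toAffine.addX x₁ x₂ ((y₁ - y₂) / (x₁ - x₂)) = x₃ := by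
    simp only [Affine.addX, brShortW]
    field_simp
    linear_combination -hx
  refine ⟨hX, ?_⟩
  simp only [Affine.addY, Affine.negAddY, Affine.negY]
  rw [hX]
  simp only [brShortW]
  field_simp
  linear_combination -hY

end short

end Fermat.Agent.S52
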