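import Fermat.Agent.S52.Klein.Defs

/-!
# S52, piece K: polynomial identities for Klein's forms (GENERATED by NOTES/S52-tools/kgen.py)
Each identity is checked by `ring` / `linear_combination` with a computer-generated certificate.
-/

set_option autoImplicit false
set_option maxHeartbeats 4000000
set_option maxRecDepth 1000000
set_option linter.unusedVariables false
set_option linter.style.longLine false
set_option linter.unusedSimpArgs false

namespace Fermat.Agent.S52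

variable {R : Type*} [CommRing R]

/-- `P` lies on the curve. -/
theorem kY1_sq (A B : R) :
    kY1 A B ^ 2 = kX1 A B ^ 3 - 27 * kE4 (A ^ 5) (B ^ 5) * kX1 A B + 54 * kE6 (A ^ 5) (B ^ 5) := by
  simp only [kX1, kY1, kX0, kY0, kX0n, kY0n, kF, kE4, kE6, kS5, kTA', kTB']
  ring

/-- `x(2P) = x_(2,0)`. -/
theorem kX1_dbl (A B : R) :
    kX1 B (-A) * (2 * kY1 A B) ^ 2 = (3 * kX1 A B ^ 2 - 27 * kE4 (A ^ 5) (B ^ 5)) ^ 2 - 2 * kX1 A B
    * (2 * kY1 A B) ^ 2 := by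
  simp only [kX1, kY1, kX0, kY0, kX0n, kY0n, kF, kE4, kE6, kS5, kTA', kTB']
  ring

/-- `y(2P) = y_(2,0)`. -/
theorem kY1_dbl (A B : R) :
    kY1 B (-A) * (2 * kY1 A B) = -((3 * kX1 A B ^ 2 - 27 * kE4 (A ^ 5) (B ^ 5)) * (kX1 B (-A) - kX1
    A B) + 2 * kY1 A B ^ 2) := by
  simp only [kX1, kY1, kX0, kY0, kX0n, kY0n, kF, kE4, kE6, kS5, kTA', kTB']
  ring

/-- `y(P)` divides `108 f²`. -/
theorem kY1_dvd (A B : R) :
    kY1 A B * (A ^ 9 - A ^ 8 * B - 3 * A ^ 7 * B ^ 2 + 7 * A ^ 6 * B ^ 3 - 7 * A ^ 4 * B ^ 5 + 7 *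
    A ^ 3 * B ^ 6 - 4 * A ^ 2 * B ^ 7 + A * B ^ 8) = 108 * kF A B ^ 2 := by
  simp only [kX1, kY1, kX0, kY0, kX0n, kY0n, kF, kE4, kE6, kS5, kTA', kTB']
  ring

end Fermat.Agent.S52
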