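import Mathlib

/-!
# S52, piece K: a small verified calculator for polynomials in `A, B` over `ℤ[ζ₅]`

Polynomial identities of Klein's forms are too heavy for `ring` (memory), so they are checked by
kernel evaluation (`decide +kernel`) of the functions below.
* `KZ` : `a + bζ + cζ² + dζ³`, `KZ.ev ζ`;
* `KPoly = List (KZ × ℕ × ℕ)` : list of monomials `c · A^i · B^j`, `kev ζ A B`;
* `kadd, kneg, kmul, kpow, kcomp` with their evaluation lemmas, `kcheck` with `kcheck_sound`.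
-/

set_option autoImplicit false

namespace Fermat.Agent.S52

/-- `a + bζ + cζ² + dζ³`. -/
structure KZ where
  a : ℤ
  b : ℤ
  c : ℤ
  d : ℤ

namespace KZ

variable {R : Type*} [CommRing R]

/-- evaluation at `ζ`. -/
def ev (ζ : R) (x : KZ) : R := x.a + x.b * ζ + x.c * ζ ^ 2 + x.d * ζ ^ 3

/-- zero. -/
def zero : KZ := ⟨0, 0, 0, 0⟩

/-- integer constant. -/
def ofInt (n : ℤ) : KZ := ⟨n, 0, 0, 0⟩

/-- sum. -/
def add (x y : KZ) : KZ := ⟨x.a + y.a, x.b + y.b, x.c + y.c, x.d + y.d⟩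

/-- negation. -/
def neg (x : KZ) : KZ := ⟨-x.a, -x.b, -x.c, -x.d⟩

/-- product, reduced modulo `1 + ζ + ζ² + ζ³ + ζ⁴`. -/
def mul (x y : KZ) : KZ :=
  ⟨x.a * y.a + (x.c * y.d + x.d * y.c) - (x.b * y.d + x.c * y.c + x.d * y.b),
   x.a * y.b + x.b * y.a + x.d * y.d - (x.b * y.d + x.c * y.c + x.d * y.b),
   x.a * y.c + x.b * y.b + x.c * y.a - (x.b * y.d + x.c * y.c + x.d * y.b),
   x.a * y.d + x.b * y.c + x.c * y.b + x.d * y.a - (x.b * y.d + x.c * y.c + x.d * y.b)⟩

/-- test for zero. -/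
def isZero (x : KZ) : Bool :=
  (decide (x.a = 0)) && ((decide (x.b = 0)) && ((decide (x.c = 0)) && (decide (x.d = 0))))

@[simp] theorem ev_zero (ζ : R) : ev ζ zero = 0 := by simp [ev, zero]

@[simp] theorem ev_ofInt (ζ : R) (n : ℤ) : ev ζ (ofInt n) = n := by simp [ev, ofInt]

@[simp] theorem ev_add (ζ : R) (x y : KZ) : ev ζ (add x y) = ev ζ x + ev ζ y := by
  simp only [ev, add]; push_cast; ring

@[simp] theorem ev_neg (ζ : R) (x : KZ) : ev ζ (neg x) = -ev ζ x := by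
  simp only [ev, neg]; push_cast; ring

theorem ev_mul {ζ : R} (hζ : 1 + ζ + ζ ^ 2 + ζ ^ 3 + ζ ^ 4 = 0) (x y : KZ) :
    ev ζ (mul x y) = ev ζ x * ev ζ y := by
  simp only [ev, mul]; push_cast
  linear_combination (-((x.b : R) * y.d + x.c * y.c + x.d * y.b)
    - ((x.c : R) * y.d + x.d * y.c) * (ζ - 1) - (x.d : R) * y.d * ζ * (ζ - 1)) * hζ

theorem ev_eq_zero_of_isZero (ζ : R) (x : KZ) (h : x.isZero = true) : ev ζ x = 0 := by
  simp only [isZero, Bool.and_eq_true, decide_eq_true_eq] at h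
  obtain ⟨ha, hb, hc, hd⟩ := h
  simp [ev, ha, hb, hc, hd]

end KZ

/-- polynomials in `A, B` over `ℤ[ζ]` as lists of monomials `(c, i, j) ↦ c · A^i · B^j`. -/
abbrev KPoly := List (KZ × ℕ × ℕ)

variable {R : Type*} [CommRing R]

/-- evaluation. -/
def kev (ζ A B : R) : KPoly → R
  | [] => 0
  | m :: p => m.1.ev ζ * A ^ m.2.1 * B ^ m.2.2 + kev ζ A B p

/-- insert a monomial, merging equal exponents. -/
def kinsert (c : KZ) (i j : ℕ) : KPoly → KPoly
  | [] => [(c, i, j)]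
  | m :: p =>
    cond (Nat.beq i m.2.1 && Nat.beq j m.2.2) ((c.add m.1, i, j) :: p)
      (cond (Nat.blt i m.2.1 || (Nat.beq i m.2.1 && Nat.blt j m.2.2)) ((c, i, j) :: m :: p)
        (m :: kinsert c i j p))

/-- sum. -/
def kadd : KPoly → KPoly → KPoly
  | [], q => q
  | m :: p, q => kinsert m.1 m.2.1 m.2.2 (kadd p q)

/-- negation. -/
def kneg : KPoly → KPoly
  | [] => []
  | m :: p => (m.1.neg, m.2.1, m.2.2) :: kneg p

/-- product by a monomial. -/
def kmulMon (c : KZ) (i j : ℕ) : KPoly → KPoly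
  | [] => []
  | m :: p => (c.mul m.1, i + m.2.1, j + m.2.2) :: kmulMon c i j p

/-- product. -/
def kmul : KPoly → KPoly → KPoly
  | [], _ => []
  | m :: p, q => kadd (kmulMon m.1 m.2.1 m.2.2 q) (kmul p q)

/-- power. -/
def kpow (p : KPoly) : ℕ → KPoly
  | 0 => [(KZ.ofInt 1, 0, 0)]
  | n + 1 => kmul p (kpow p n)

/-- substitution `A ↦ l₁`, `B ↦ l₂`. -/
def kcomp (l₁ l₂ : KPoly) : KPoly → KPoly
  | [] => []
  | m :: p => kadd (kmulMon m.1 0 0 (kmul (kpow l₁ m.2.1) (kpow l₂ m.2.2))) (kcomp l₁ l₂ p)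

/-- all coefficients vanish. -/
def kallZero : KPoly → Bool
  | [] => true
  | m :: p => m.1.isZero && kallZero p

/-- equality test. -/
def kcheck (p q : KPoly) : Bool := kallZero (kadd p (kneg q))

theorem kev_insert (ζ A B : R) (c : KZ) (i j : ℕ) (p : KPoly) :
    kev ζ A B (kinsert c i j p) = c.ev ζ * A ^ i * B ^ j + kev ζ A B p := by
  induction p with
  | nil => simp [kinsert, kev]
  | cons m p ih =>
    unfold kinsert
    cases h1 : (Nat.beq i m.2.1 && Nat.beq j m.2.2)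
    · cases h2 : (Nat.blt i m.2.1 || (Nat.beq i m.2.1 && Nat.blt j m.2.2))
      · simp only [cond_false, kev, ih]; ring
      · simp only [cond_false, cond_true, kev]
    · simp only [Bool.and_eq_true] at h1
      obtain ⟨hi, hj⟩ := h1
      have hi' := Nat.eq_of_beq_eq_true hi
      have hj' := Nat.eq_of_beq_eq_true hj
      simp only [cond_true, kev, KZ.ev_add, ← hi', ← hj']; ring

theorem kev_add (ζ A B : R) (p q : KPoly) :
    kev ζ A B (kadd p q) = kev ζ A B p + kev ζ A B q := by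
  induction p with
  | nil => simp [kadd, kev]
  | cons m p ih => simp only [kadd, kev_insert, ih, kev]; ring

theorem kev_neg (ζ A B : R) (p : KPoly) : kev ζ A B (kneg p) = -kev ζ A B p := by
  induction p with
  | nil => simp [kneg, kev]
  | cons m p ih => simp only [kneg, kev, ih, KZ.ev_neg]; ring

theorem kev_mulMon {ζ : R} (hζ : 1 + ζ + ζ ^ 2 + ζ ^ 3 + ζ ^ 4 = 0) (A B : R) (c : KZ) (i j : ℕ)
    (p : KPoly) : kev ζ A B (kmulMon c i j p) = c.ev ζ * A ^ i * B ^ j * kev ζ A B p := by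
  induction p with
  | nil => simp [kmulMon, kev]
  | cons m p ih => simp only [kmulMon, kev, ih, KZ.ev_mul hζ]; ring

theorem kev_mul {ζ : R} (hζ : 1 + ζ + ζ ^ 2 + ζ ^ 3 + ζ ^ 4 = 0) (A B : R) (p q : KPoly) :
    kev ζ A B (kmul p q) = kev ζ A B p * kev ζ A B q := by
  induction p with
  | nil => simp [kmul, kev]
  | cons m p ih => simp only [kmul, kev_add, kev_mulMon hζ, ih, kev]; ring

theorem kev_pow {ζ : R} (hζ : 1 + ζ + ζ ^ 2 + ζ ^ 3 + ζ ^ 4 = 0) (A B : R) (p : KPoly) (n : ℕ) :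
    kev ζ A B (kpow p n) = kev ζ A B p ^ n := by
  induction n with
  | zero => simp [kpow, kev]
  | succ n ih => simp only [kpow, kev_mul hζ, ih]; ring

theorem kev_comp {ζ : R} (hζ : 1 + ζ + ζ ^ 2 + ζ ^ 3 + ζ ^ 4 = 0) (A B : R) (l₁ l₂ p : KPoly) :
    kev ζ A B (kcomp l₁ l₂ p) = kev ζ (kev ζ A B l₁) (kev ζ A B l₂) p := by
  induction p with
  | nil => simp [kcomp, kev]
  | cons m p ih =>
    simp only [kcomp, kev_add, kev_mulMon hζ, kev_mul hζ, kev_pow hζ, ih, kev]; ring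

theorem kev_eq_zero_of_allZero (ζ A B : R) (p : KPoly) (h : kallZero p = true) :
    kev ζ A B p = 0 := by
  induction p with
  | nil => simp [kev]
  | cons m p ih =>
    simp only [kallZero, Bool.and_eq_true] at h
    simp [kev, KZ.ev_eq_zero_of_isZero ζ m.1 h.1, ih h.2]

theorem kcheck_sound (ζ A B : R) (p q : KPoly) (h : kcheck p q = true) :
    kev ζ A B p = kev ζ A B q := by
  have := kev_eq_zero_of_allZero ζ A B _ h
  rw [kev_add, kev_neg] at this
  linear_combination this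

end Fermat.Agent.S52
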