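import Fermat.Agent.S52.Klein.Defs
import Fermat.Agent.S52.Klein.Reflect

/-!
# S52, piece K: the forms as `KPoly` lists, with their evaluation lemmas (GENERATED, kgen2.py)
-/

set_option autoImplicit false
set_option linter.unusedSimpArgs false
set_option linter.unusedVariables false
set_option linter.style.longLine false
set_option maxRecDepth 100000

namespace Fermat.Agent.S52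

variable {R : Type*} [CommRing R]

theorem kev_const (ζ A B : R) (n : ℤ) : kev ζ A B [(KZ.ofInt n, 0, 0)] = (n : R) := by
  simp [kev, KZ.ev, KZ.ofInt]

/-- cofactor: `kY1 * kY1Cof = 108 f²`. -/
def kY1Cof (A B : R) : R :=
  A ^ 9 - A ^ 8 * B - 3 * A ^ 7 * B ^ 2 + 7 * A ^ 6 * B ^ 3 - 7 * A ^ 4 * B ^ 5 + 7 * A ^ 3 * B ^ 6
  - 4 * A ^ 2 * B ^ 7 + A * B ^ 8

/-- cofactor: `kY0n * kY0Cof = 540 g²`. -/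
def kY0Cof (ζ A B : R) : R :=
  -ζ ^ 3 * A ^ 5 + 7 * ζ ^ 3 * B ^ 5 - 7 * ζ ^ 2 * A ^ 5 - ζ ^ 2 * B ^ 5 - 8 * ζ * A ^ 5 + 6 * ζ *
  B ^ 5 - 4 * A ^ 5 + 3 * B ^ 5

/-- cofactor: `(kX0n - 5 kX1) * kD1Cof = 180 f²`. -/
def kD1Cof (ζ A B : R) : R :=
  ζ ^ 3 * A ^ 12 * B ^ 2 - 5 * ζ ^ 3 * A ^ 10 * B ^ 4 + 5 * ζ ^ 3 * A ^ 9 * B ^ 5 + 10 * ζ ^ 3 * A
  ^ 8 * B ^ 6 - 14 * ζ ^ 3 * A ^ 7 * B ^ 7 + 10 * ζ ^ 3 * A ^ 5 * B ^ 9 - 10 * ζ ^ 3 * A ^ 4 * B ^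
  10 + 5 * ζ ^ 3 * A ^ 3 * B ^ 11 - ζ ^ 3 * A ^ 2 * B ^ 12 + ζ ^ 2 * A ^ 12 * B ^ 2 - 5 * ζ ^ 2 * A
  ^ 10 * B ^ 4 + 5 * ζ ^ 2 * A ^ 9 * B ^ 5 + 10 * ζ ^ 2 * A ^ 8 * B ^ 6 - 14 * ζ ^ 2 * A ^ 7 * B ^
  7 + 10 * ζ ^ 2 * A ^ 5 * B ^ 9 - 10 * ζ ^ 2 * A ^ 4 * B ^ 10 + 5 * ζ ^ 2 * A ^ 3 * B ^ 11 - ζ ^ 2
  * A ^ 2 * B ^ 12 - 2 * A ^ 12 * B ^ 2 + 5 * A ^ 10 * B ^ 4 - 5 * A ^ 9 * B ^ 5 - 5 * A ^ 8 * B ^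
  6 - 7 * A ^ 7 * B ^ 7 + 15 * A ^ 5 * B ^ 9 - 15 * A ^ 4 * B ^ 10 + 10 * A ^ 3 * B ^ 11 - 3 * A ^
  2 * B ^ 12

/-- cofactor: `(kX0n - 5 kX1(B,-A)) * kD2Cof = 180 f²`. -/
def kD2Cof (ζ A B : R) : R :=
  ζ ^ 3 * A ^ 12 * B ^ 2 + 5 * ζ ^ 3 * A ^ 11 * B ^ 3 + 10 * ζ ^ 3 * A ^ 10 * B ^ 4 + 10 * ζ ^ 3 *
  A ^ 9 * B ^ 5 - 14 * ζ ^ 3 * A ^ 7 * B ^ 7 - 10 * ζ ^ 3 * A ^ 6 * B ^ 8 + 5 * ζ ^ 3 * A ^ 5 * B ^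
  9 + 5 * ζ ^ 3 * A ^ 4 * B ^ 10 - ζ ^ 3 * A ^ 2 * B ^ 12 + ζ ^ 2 * A ^ 12 * B ^ 2 + 5 * ζ ^ 2 * A
  ^ 11 * B ^ 3 + 10 * ζ ^ 2 * A ^ 10 * B ^ 4 + 10 * ζ ^ 2 * A ^ 9 * B ^ 5 - 14 * ζ ^ 2 * A ^ 7 * B
  ^ 7 - 10 * ζ ^ 2 * A ^ 6 * B ^ 8 + 5 * ζ ^ 2 * A ^ 5 * B ^ 9 + 5 * ζ ^ 2 * A ^ 4 * B ^ 10 - ζ ^ 2
  * A ^ 2 * B ^ 12 - 2 * A ^ 12 * B ^ 2 - 5 * A ^ 11 * B ^ 3 - 5 * A ^ 10 * B ^ 4 - 5 * A ^ 9 * B ^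
  5 - 7 * A ^ 7 * B ^ 7 - 15 * A ^ 6 * B ^ 8 + 10 * A ^ 5 * B ^ 9 + 10 * A ^ 4 * B ^ 10 - 3 * A ^ 2
  * B ^ 12

/-- first component of `∇^⊥ f` (up to normalisation). -/
def kGradA (A B : R) : R := A * (11 * (B ^ 5) ^ 2 - 66 * A ^ 5 * B ^ 5 - (A ^ 5) ^ 2)

/-- second component of `∇^⊥ f` (up to normalisation). -/
def kGradB (A B : R) : R := -(B * ((B ^ 5) ^ 2 - 66 * A ^ 5 * B ^ 5 - 11 * (A ^ 5) ^ 2))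

/-- the list of `A`. -/
def kAL : KPoly :=
  [(⟨1, 0, 0, 0⟩, 1, 0)]

/-- the list of `B`. -/
def kBL : KPoly :=
  [(⟨1, 0, 0, 0⟩, 0, 1)]

/-- the list of `-A`. -/
def kNegAL : KPoly :=
  [(⟨-1, 0, 0, 0⟩, 1, 0)]

/-- the list of `ζ * A`. -/
def kZAL : KPoly :=
  [(⟨0, 1, 0, 0⟩, 1, 0)]

/-- the list of `kX1 A B`. -/
def kX1L : KPoly :=
  [(⟨3, 0, 0, 0⟩, 0, 10), (⟨36, 0, 0, 0⟩, 1, 9), (⟨72, 0, 0, 0⟩, 2, 8), (⟨108, 0, 0, 0⟩, 3, 7),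
  (⟨180, 0, 0, 0⟩, 4, 6), (⟨90, 0, 0, 0⟩, 5, 5), (⟨72, 0, 0, 0⟩, 6, 4), (⟨-36, 0, 0, 0⟩, 7, 3),
  (⟨36, 0, 0, 0⟩, 8, 2), (⟨3, 0, 0, 0⟩, 10, 0)]

/-- the list of `kY1 A B`. -/
def kY1L : KPoly :=
  [(⟨108, 0, 0, 0⟩, 1, 14), (⟨432, 0, 0, 0⟩, 2, 13), (⟨972, 0, 0, 0⟩, 3, 12), (⟨1620, 0, 0, 0⟩, 4,
  11), (⟨2700, 0, 0, 0⟩, 5, 10), (⟨3132, 0, 0, 0⟩, 6, 9), (⟨2268, 0, 0, 0⟩, 7, 8), (⟨648, 0, 0, 0⟩,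
  8, 7), (⟨540, 0, 0, 0⟩, 9, 6), (⟨432, 0, 0, 0⟩, 11, 4), (⟨108, 0, 0, 0⟩, 12, 3), (⟨108, 0, 0, 0⟩,
  13, 2)]

/-- the list of `kX0n ζ A B`. -/
def kX0nL : KPoly :=
  [(⟨-57, 0, 36, 36⟩, 0, 10), (⟨-198, 0, -396, -396⟩, 5, 5), (⟨-93, 0, -36, -36⟩, 10, 0)]

/-- the list of `kY0n ζ A B`. -/
def kY0nL : KPoly :=
  [(⟨-216, -432, -324, -108⟩, 0, 15), (⟨2484, 4968, 3456, 1512⟩, 5, 10), (⟨-972, -1944, 1512,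
  -3456⟩, 10, 5), (⟨-108, -216, 108, -324⟩, 15, 0)]

/-- the list of `kX0n (ζ ^ 2) A B`. -/
def kX0n2L : KPoly :=
  [(⟨-93, 0, -36, -36⟩, 0, 10), (⟨198, 0, 396, 396⟩, 5, 5), (⟨-57, 0, 36, 36⟩, 10, 0)]

/-- the list of `kY0n (ζ ^ 2) A B`. -/
def kY0n2L : KPoly :=
  [(⟨108, 216, -108, 324⟩, 0, 15), (⟨-972, -1944, 1512, -3456⟩, 5, 10), (⟨-2484, -4968, -3456,
  -1512⟩, 10, 5), (⟨-216, -432, -324, -108⟩, 15, 0)]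

/-- the list of `kE4 (A ^ 5) (B ^ 5)`. -/
def kE4L : KPoly :=
  [(⟨1, 0, 0, 0⟩, 0, 20), (⟨228, 0, 0, 0⟩, 5, 15), (⟨494, 0, 0, 0⟩, 10, 10), (⟨-228, 0, 0, 0⟩, 15,
  5), (⟨1, 0, 0, 0⟩, 20, 0)]

/-- the list of `kE6 (A ^ 5) (B ^ 5)`. -/
def kE6L : KPoly :=
  [(⟨1, 0, 0, 0⟩, 0, 30), (⟨-522, 0, 0, 0⟩, 5, 25), (⟨-10005, 0, 0, 0⟩, 10, 20), (⟨-10005, 0, 0,
  0⟩, 20, 10), (⟨522, 0, 0, 0⟩, 25, 5), (⟨1, 0, 0, 0⟩, 30, 0)]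

/-- the list of `kF A B`. -/
def kFL : KPoly :=
  [(⟨1, 0, 0, 0⟩, 1, 11), (⟨-11, 0, 0, 0⟩, 6, 6), (⟨-1, 0, 0, 0⟩, 11, 1)]

/-- the list of `B ^ 10 - 11 * A ^ 5 * B ^ 5 - A ^ 10`. -/
def kGL : KPoly :=
  [(⟨1, 0, 0, 0⟩, 0, 10), (⟨-11, 0, 0, 0⟩, 5, 5), (⟨-1, 0, 0, 0⟩, 10, 0)]

/-- the list of `kTA' ζ A B`. -/
def kTAL : KPoly :=
  [(⟨0, 0, 1, -1⟩, 0, 1), (⟨-1, -2, -1, -1⟩, 1, 0)]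

/-- the list of `kTB' ζ A B`. -/
def kTBL : KPoly :=
  [(⟨1, 2, 1, 1⟩, 0, 1), (⟨0, 0, 1, -1⟩, 1, 0)]

/-- the list of `kS5 ζ`. -/
def kS5L : KPoly :=
  [(⟨-1, 0, -2, -2⟩, 0, 0)]

/-- the list of `kY1Cof A B`. -/
def kC1L : KPoly :=
  [(⟨1, 0, 0, 0⟩, 1, 8), (⟨-4, 0, 0, 0⟩, 2, 7), (⟨7, 0, 0, 0⟩, 3, 6), (⟨-7, 0, 0, 0⟩, 4, 5), (⟨7,
  0, 0, 0⟩, 6, 3), (⟨-3, 0, 0, 0⟩, 7, 2), (⟨-1, 0, 0, 0⟩, 8, 1), (⟨1, 0, 0, 0⟩, 9, 0)]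

/-- the list of `kY0Cof ζ A B`. -/
def kC0L : KPoly :=
  [(⟨3, 6, -1, 7⟩, 0, 5), (⟨-4, -8, -7, -1⟩, 5, 0)]

/-- the list of `kD1Cof ζ A B`. -/
def kD1L : KPoly :=
  [(⟨-3, 0, -1, -1⟩, 2, 12), (⟨10, 0, 5, 5⟩, 3, 11), (⟨-15, 0, -10, -10⟩, 4, 10), (⟨15, 0, 10, 10⟩,
  5, 9), (⟨-7, 0, -14, -14⟩, 7, 7), (⟨-5, 0, 10, 10⟩, 8, 6), (⟨-5, 0, 5, 5⟩, 9, 5), (⟨5, 0, -5,
  -5⟩, 10, 4), (⟨-2, 0, 1, 1⟩, 12, 2)]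

/-- the list of `kD2Cof ζ A B`. -/
def kD2L : KPoly :=
  [(⟨-3, 0, -1, -1⟩, 2, 12), (⟨10, 0, 5, 5⟩, 4, 10), (⟨10, 0, 5, 5⟩, 5, 9), (⟨-15, 0, -10, -10⟩, 6,
  8), (⟨-7, 0, -14, -14⟩, 7, 7), (⟨-5, 0, 10, 10⟩, 9, 5), (⟨-5, 0, 10, 10⟩, 10, 4), (⟨-5, 0, 5, 5⟩,
  11, 3), (⟨-2, 0, 1, 1⟩, 12, 2)]

/-- the list of `kGradA A B`. -/
def kGAL : KPoly :=
  [(⟨11, 0, 0, 0⟩, 1, 10), (⟨-66, 0, 0, 0⟩, 6, 5), (⟨-1, 0, 0, 0⟩, 11, 0)]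

/-- the list of `kGradB A B`. -/
def kGBL : KPoly :=
  [(⟨-1, 0, 0, 0⟩, 0, 11), (⟨66, 0, 0, 0⟩, 5, 6), (⟨11, 0, 0, 0⟩, 10, 1)]

theorem kev_kAL (ζ A B : R) : kev ζ A B kAL = A := by
  simp only [kAL, kev, KZ.ev]
  push_cast
  ring

theorem kev_kBL (ζ A B : R) : kev ζ A B kBL = B := by
  simp only [kBL, kev, KZ.ev]
  push_cast
  ring

theorem kev_kNegAL (ζ A B : R) : kev ζ A B kNegAL = -A := by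
  simp only [kNegAL, kev, KZ.ev]
  push_cast
  ring

theorem kev_kZAL (ζ A B : R) : kev ζ A B kZAL = ζ * A := by
  simp only [kZAL, kev, KZ.ev]
  push_cast
  ring

theorem kev_kX1L (ζ A B : R) : kev ζ A B kX1L = kX1 A B := by
  simp only [kX1L, kev, KZ.ev, kX1]
  push_cast
  ring

theorem kev_kY1L (ζ A B : R) : kev ζ A B kY1L = kY1 A B := by
  simp only [kY1L, kev, KZ.ev, kY1]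
  push_cast
  ring

theorem kev_kX0nL (ζ A B : R) : kev ζ A B kX0nL = kX0n ζ A B := by
  simp only [kX0nL, kev, KZ.ev, kX0n]
  push_cast
  ring

theorem kev_kY0nL (ζ A B : R) : kev ζ A B kY0nL = kY0n ζ A B := by
  simp only [kY0nL, kev, KZ.ev, kY0n]
  push_cast
  ring

theorem kev_kX0n2L (ζ A B : R) (hζ : 1 + ζ + ζ ^ 2 + ζ ^ 3 + ζ ^ 4 = 0) : kev ζ A B kX0n2L = kX0n (ζ ^ 2) A B := by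
  simp only [kX0n2L, kev, KZ.ev, kX0n]
  push_cast
  linear_combination
    (36 * ζ ^ 2 * A ^ 10 + 396 * ζ ^ 2 * A ^ 5 * B ^ 5 - 36 * ζ ^ 2 * B ^ 10 - 36 * ζ * A ^ 10 -
    396 * ζ * A ^ 5 * B ^ 5 + 36 * ζ * B ^ 10 + 36 * A ^ 10 + 396 * A ^ 5 * B ^ 5 - 36 * B ^ 10) *
    hζ

theorem kev_kY0n2L (ζ A B : R) (hζ : 1 + ζ + ζ ^ 2 + ζ ^ 3 + ζ ^ 4 = 0) : kev ζ A B kY0n2L = kY0n (ζ ^ 2) A B := by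
  simp only [kY0n2L, kev, KZ.ev, kY0n]
  push_cast
  linear_combination
    (324 * ζ ^ 2 * A ^ 15 + 3456 * ζ ^ 2 * A ^ 10 * B ^ 5 - 1512 * ζ ^ 2 * A ^ 5 * B ^ 10 + 108 * ζ
    ^ 2 * B ^ 15 - 324 * ζ * A ^ 15 - 3456 * ζ * A ^ 10 * B ^ 5 + 1512 * ζ * A ^ 5 * B ^ 10 - 108 *
    ζ * B ^ 15 - 108 * A ^ 15 - 1512 * A ^ 10 * B ^ 5 - 3456 * A ^ 5 * B ^ 10 + 324 * B ^ 15) * hζ

theorem kev_kE4L (ζ A B : R) : kev ζ A B kE4L = kE4 (A ^ 5) (B ^ 5) := by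
  simp only [kE4L, kev, KZ.ev, kE4]
  push_cast
  ring

theorem kev_kE6L (ζ A B : R) : kev ζ A B kE6L = kE6 (A ^ 5) (B ^ 5) := by
  simp only [kE6L, kev, KZ.ev, kE6]
  push_cast
  ring

theorem kev_kFL (ζ A B : R) : kev ζ A B kFL = kF A B := by
  simp only [kFL, kev, KZ.ev, kF]
  push_cast
  ring

theorem kev_kGL (ζ A B : R) : kev ζ A B kGL = B ^ 10 - 11 * A ^ 5 * B ^ 5 - A ^ 10 := by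
  simp only [kGL, kev, KZ.ev]
  push_cast
  ring

theorem kev_kTAL (ζ A B : R) : kev ζ A B kTAL = kTA' ζ A B := by
  simp only [kTAL, kev, KZ.ev, kTA']
  push_cast
  ring

theorem kev_kTBL (ζ A B : R) : kev ζ A B kTBL = kTB' ζ A B := by
  simp only [kTBL, kev, KZ.ev, kTB']
  push_cast
  ring

theorem kev_kS5L (ζ A B : R) (hζ : 1 + ζ + ζ ^ 2 + ζ ^ 3 + ζ ^ 4 = 0) : kev ζ A B kS5L = kS5 ζ := by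
  simp only [kS5L, kev, KZ.ev, kS5]
  push_cast
  linear_combination
    (-1) * hζ

theorem kev_kC1L (ζ A B : R) : kev ζ A B kC1L = kY1Cof A B := by
  simp only [kC1L, kev, KZ.ev, kY1Cof]
  push_cast
  ring

theorem kev_kC0L (ζ A B : R) : kev ζ A B kC0L = kY0Cof ζ A B := by
  simp only [kC0L, kev, KZ.ev, kY0Cof]
  push_cast
  ring

theorem kev_kD1L (ζ A B : R) : kev ζ A B kD1L = kD1Cof ζ A B := by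
  simp only [kD1L, kev, KZ.ev, kD1Cof]
  push_cast
  ring

theorem kev_kD2L (ζ A B : R) : kev ζ A B kD2L = kD2Cof ζ A B := by
  simp only [kD2L, kev, KZ.ev, kD2Cof]
  push_cast
  ring

theorem kev_kGAL (ζ A B : R) : kev ζ A B kGAL = kGradA A B := by
  simp only [kGAL, kev, KZ.ev, kGradA]
  push_cast
  ring

theorem kev_kGBL (ζ A B : R) : kev ζ A B kGBL = kGradB A B := by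
  simp only [kGBL, kev, KZ.ev, kGradB]
  push_cast
  ring

end Fermat.Agent.S52
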